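import Fermat.Agent.LT.T7.H776.WBasisSpec

/-!
# Row LT, tower T7, leaf T7.L2.3.5.4.B4 `IwAvgAsmC776` (registry row 2392; helper75)

OFF-MAIN.  `iwAvgAsmC75 (K) : WB776.IwAvgAsmC776 K` VERBATIM vs `LT/T7/H776/WBasisSpec.lean`
(helper776@c8c37e749, sha256 ebd5d61e), byte-identical spec closure.  ASSEMBLY: the projector is
`P = finAvg Rep` as a linear map, `Rep` from `FinDataC K 𝔫 𝔫 _ le_rfl 1 (fun _ => u)`.

* `eig`  : `FinAvgCuspC` (cusp function, Iwahori invariant), `FinAvgPosC776`, `FinAvgHeckeC776`,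
  `FinAvgMeanC776`;
* `fix`  : `χ(g i u₀) = χ(g)` for the members `i u₀` of `Rep` (`IsFinData.mem`);
* `inner`: `FinAvgOrthC` for the frame `⟨μ, F, r⟩` and the form `CuspFormC` (`conj_symm`,
  `add_left`), the subspace `WSubC` (`addV`, `smulV`).
`T1.T1Out`, `TranslInvC` are passed to the leaves as they are.
-/

set_option autoImplicit false

open AutomorphicForm IsDedekindDomain NumberField MeasureTheory
open scoped ComplexConjugate

noncomputable section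

namespace Fermat.Agent.LT.T7.H75

open Fermat.Agent.LT Fermat.Agent.LT.H556 Fermat.Agent.LT.H556.A0 Fermat.Agent.LT.T7
open Fermat.Agent.LT.T7.SD534 Fermat.Agent.LT.T7.H193 Fermat.Agent.LT.T7.WB776

attribute [local instance] Fermat.Agent.LT.T5.instMeasurableSpaceG

variable {K : Type} [Field K] [NumberField K]

/-- `finAvg Rep` as a linear map. -/
def finAvgLin75 (Rep : Finset (G K)) : (G K → ℂ) →ₗ[ℂ] (G K → ℂ) where
  toFun := finAvg Rep
  map_add' := by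
    intro ψ ψ'
    funext g
    show ((Rep.card : ℂ))⁻¹ * ∑ h ∈ Rep, (ψ (g * h) + ψ' (g * h))
      = ((Rep.card : ℂ))⁻¹ * ∑ h ∈ Rep, ψ (g * h) + ((Rep.card : ℂ))⁻¹ * ∑ h ∈ Rep, ψ' (g * h)
    rw [Finset.sum_add_distrib, mul_add]
  map_smul' := by
    intro a ψ
    funext g
    show ((Rep.card : ℂ))⁻¹ * ∑ h ∈ Rep, a * ψ (g * h)
      = a * (((Rep.card : ℂ))⁻¹ * ∑ h ∈ Rep, ψ (g * h))
    rw [← Finset.mul_sum]
    ring

theorem finAvgLin75_apply (Rep : Finset (G K)) (ψ : G K → ℂ) :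
    finAvgLin75 Rep ψ = finAvg Rep ψ := rfl

/-- The finite average fixes the functions which are invariant under the level group and under
the Iwahori elements of the orbit. -/
theorem finAvg_fix75 {𝔑 𝔑₀ : Ideal (𝓞 K)} {l : ℕ} {o : ℕ → HeightOneSpectrum (𝓞 K)}
    {Rep : Finset (G K)} (hRep : IsFinData 𝔑 𝔑₀ l o Rep) {χ : G K → ℂ}
    (hlev : ∀ u : G K, InLevelGroup 𝔑₀ u → ∀ g : G K, χ (g * u) = χ g)
    (hiw : IsIwInv l o χ) : finAvg Rep χ = χ := by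
  funext g
  have hsum : ∑ h ∈ Rep, χ (g * h) = ∑ _h ∈ Rep, χ g := by
    refine Finset.sum_congr rfl fun h hh => ?_
    obtain ⟨i, u, hi, hu, rfl⟩ := hRep.mem h hh
    rw [← mul_assoc, hlev u hu, isIwInv_iff.1 hiw i hi]
  have hcard : (Rep.card : ℂ) ≠ 0 :=
    Nat.cast_ne_zero.2 (Finset.card_ne_zero.2 hRep.nonempty)
  show ((Rep.card : ℂ))⁻¹ * ∑ h ∈ Rep, χ (g * h) = χ g
  rw [hsum, Finset.sum_const, nsmul_eq_mul, ← mul_assoc, inv_mul_cancel₀ hcard, one_mul]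

/-- **T7.L2.3.5.4.B4 = WB.B4 `IwAvgAsmC776` (ASSEMBLY).** -/
theorem iwAvgAsmC75 (K : Type) [Field K] [NumberField K] : IwAvgAsmC776 K := by
  intro hT1 hFD hFC hFO hTI hPos hHe hMe hForm hSub μ F r 𝔫 u h𝔫 hframe hray
  obtain ⟨Rep, hRep⟩ := hFD 𝔫 𝔫 h𝔫 le_rfl 1 (fun _ => u)
  have hcusp : ∀ ψ : G K → ℂ, T5.IsCuspFn 𝔫 T5.trivType r ψ →
      T5.IsCuspFn 𝔫 T5.trivType r (finAvg Rep ψ) ∧ IsIwInv 1 (fun _ => u) (finAvg Rep ψ) :=
    fun ψ hψ => hFC hT1 𝔫 𝔫 1 (fun _ => u) Rep hRep r hray ψ hψ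
  have hform := hForm μ F r 𝔫 h𝔫 hframe hray
  have hsub := hSub 𝔫 r u
  refine ⟨finAvgLin75 Rep, ?_, ?_, ?_⟩
  · -- `eig`
    intro ψ c hψ
    rw [finAvgLin75_apply]
    exact
      { inv :=
          { cusp := (hcusp ψ hψ.inv.cusp).1
            arch_scalar := hPos 𝔫 𝔫 1 (fun _ => u) Rep hRep ψ hψ.inv.arch_scalar
            iw := (hcusp ψ hψ.inv.cusp).2 }
        hecke := fun v hv => hHe 𝔫 𝔫 1 (fun _ => u) Rep hRep ψ v (c.a v) (c.b v) (hψ.hecke v hv)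
        mean := fun w => hMe 𝔫 𝔫 1 (fun _ => u) Rep hRep ψ w (c.m w) hψ.inv.cusp.cont
          (hψ.mean w) }
  · -- `fix`
    intro χ hχ
    rw [finAvgLin75_apply]
    exact finAvg_fix75 hRep hχ.cusp.aut.level_inv hχ.iw
  · -- `inner`
    intro χ ψ hχ hψ
    rw [finAvgLin75_apply]
    have hψV : InV 𝔫 r ψ := hψ.cusp
    have hPV : InV 𝔫 r (finAvg Rep ψ) := (hcusp ψ hψ.cusp).1
    have hχV : InV 𝔫 r χ := hχ.cusp
    have hdV : InV 𝔫 r (ψ + (-1 : ℂ) • finAvg Rep ψ) :=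
      hsub.addV _ _ hψV (hsub.smulV _ _ hPV)
    have hd : (ψ + (-1 : ℂ) • finAvg Rep ψ) = fun x => ψ x - finAvg Rep ψ x := by
      funext x
      simp [sub_eq_add_neg]
    have h0 : T5.innerD μ F (fun x => ψ x - finAvg Rep ψ x) χ = 0 :=
      hFO hT1 hTI ⟨μ, F, r⟩ ⟨hframe, hray⟩ 𝔫 𝔫 1 (fun _ => u) Rep hRep ψ hψ.cusp χ hχ.cusp
        hχ.iw
    have hsplit : (ψ + (-1 : ℂ) • finAvg Rep ψ) + finAvg Rep ψ = ψ := by
      funext x
      simp
    have h1 : T5.innerD μ F ψ χ = T5.innerD μ F (finAvg Rep ψ) χ := by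
      have := hform.add_left _ _ χ hdV hPV hχV
      rw [hsplit, hd, h0, zero_add] at this
      exact this
    rw [hform.conj_symm (finAvg Rep ψ) χ hPV hχV, hform.conj_symm ψ χ hψV hχV, h1]

end Fermat.Agent.LT.T7.H75

end
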