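import Mathlib
import Fermat.Agent.LT.T7.H973.PreBQSpec
import Fermat.Agent.LT.T5.H942.RegAux

/-!
# Row LT, tower T7, leaf T7.L2Q.1.H2a.B.0.D5 `PBQ973.SwapDnSuppQC973` (helper75, registry row
# 3142): the field `dn_supp` of the un-averaged second pair over `ℚ`, the two types

OFF-MAIN.  No hole, nothing assumed.  ADDITIVE (namespace `Fermat.Agent.LT.T7.H75.SQ`).

    swapDnSuppQC_of75 (F) : PBQ973.SwapDnSumQC973 F → PBQ973.SwapDnSuppQC973 F

VERBATIM conclusion vs `LT/T7/H973/PreBQSpec.lean` (helper973@a2ff41d85, sha256 200eee4e);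
CONDITIONAL on the key identity downstairs `PBQ973.SwapDnSumQC973` (tool leaf of the same cut,
registry row 3131), as allowed by the row.

Proof.  By the key identity the swapped function of type `t` is
`a ∑_{x ∈ X} c_x F₁ t [] (x⁻¹ ·)` (the integral of a finite sum of continuous functions on the
compact parameter space), the elements of `X` are Iwahori at `u`, and `F₁ t []` is supported on
elements which are Iwahori at `u` and agree outside `u` with an element of a compact set `C`
(`IsPairAQ801.dn1_supp`).  The Iwahori subgroup is a group, so the swapped function is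
Iwahori-supported in the compact set `⋃_{x ∈ X} x C`.
-/

set_option autoImplicit false
set_option linter.style.haveILetI false
set_option linter.unusedSectionVars false
set_option linter.unusedVariables false

open AutomorphicForm IsDedekindDomain NumberField MeasureTheory
open scoped ComplexConjugate

noncomputable section

namespace Fermat.Agent.LT.T7.H75.SQ

open Fermat.Agent.LT Fermat.Agent.LT.H556 Fermat.Agent.LT.H556.A0 Fermat.Agent.LT.T7
open Fermat.Agent.LT.T7.H305 Fermat.Agent.LT.T7.L2Q Fermat.Agent.LT.T7.H893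
open Fermat.Agent.LT.T7.H962 Fermat.Agent.LT.T7.H732 Fermat.Agent.LT.T7.MQ298
open Fermat.Agent.LT.T7.CQ801 Fermat.Agent.LT.T7.PBQ973

attribute [local instance] Fermat.Agent.LT.T5.instMeasurableSpaceG

section OneField

variable {K : Type} [Field K] [NumberField K]

/-- A function which vanishes outside the supports of finitely many left translates, by
elements which are Iwahori along the orbit, of an Iwahori-supported function is
Iwahori-supported (in the finite union of the translates of the compact set). -/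
theorem isIwSupported_ltr75 (l : ℕ) (o : ℕ → HeightOneSpectrum (𝓞 K)) {C : Set (G K)}
    (hC : IsCompact C) {φ : G K → ℂ} (hφ : T5.H32.IsIwSupported32 l o C φ)
    (X : Finset (G K)) (hX : ∀ x ∈ X, ∀ j < l, T5.InIwahori (o j) x)
    {ψ : G K → ℂ} (hψ : ∀ y, ψ y ≠ 0 → ∃ x ∈ X, φ (x⁻¹ * y) ≠ 0) :
    ∃ C' : Set (G K), IsCompact C' ∧ T5.H32.IsIwSupported32 l o C' ψ := by
  refine ⟨⋃ x ∈ X, (fun c => x * c) '' C, ?_, ?_⟩
  · exact X.isCompact_biUnion fun x _ => hC.image (continuous_const.mul continuous_id)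
  · intro y hy
    obtain ⟨x, hx, hne⟩ := hψ y hy
    obtain ⟨hIw, c, hc, hag⟩ := hφ (x⁻¹ * y) hne
    have ey : y = x * (x⁻¹ * y) := by rw [mul_inv_cancel_left]
    refine ⟨fun j hj => ?_, x * c, ?_, ?_⟩
    · rw [ey]
      exact T5.H942.inIwahori_mul942 (o j) (hX x hx j hj) (hIw j hj)
    · exact Set.mem_biUnion hx ⟨c, hc, rfl⟩
    · have h1 := T5.H942.agreeOutside_mul942 _ (T5.H942.agreeOutside_refl942 _ x) hag
      rwa [← ey] at h1

/-- A member of a jointly continuous family on a compact parameter space is integrable. -/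
theorem integrable_member75 {Ω : Type} [TopologicalSpace Ω] [CompactSpace Ω]
    [MeasurableSpace Ω] [BorelSpace Ω] (ν : Measure Ω) [IsFiniteMeasure ν]
    {p : Ω → G K → ℂ} (hp : Continuous fun q : Ω × G K => p q.1 q.2) (y : G K) :
    Integrable (fun ω => p ω y) ν := by
  have hc : Continuous fun ω : Ω => p ω y :=
    hp.comp (continuous_id.prodMk continuous_const)
  exact hc.integrable_of_hasCompactSupport (HasCompactSupport.of_compactSpace _)

/-- The integral of a weighted finite sum of left translates of the members. -/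
theorem integral_wsum75 {Ω : Type} [TopologicalSpace Ω] [CompactSpace Ω]
    [MeasurableSpace Ω] [BorelSpace Ω] (ν : Measure Ω) [IsFiniteMeasure ν]
    {p : Ω → G K → ℂ} (hp : Continuous fun q : Ω × G K => p q.1 q.2)
    (a : ℂ) (X : Finset (G K)) (c : G K → ℂ) (y : G K) :
    ∫ ω, a * ∑ x ∈ X, c x * p ω (x⁻¹ * y) ∂ν
      = a * ∑ x ∈ X, c x * ∫ ω, p ω (x⁻¹ * y) ∂ν := by
  rw [integral_const_mul, integral_finsetSum]
  · congr 1
    refine Finset.sum_congr rfl fun x _ => ?_
    rw [integral_const_mul]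
  · intro x _
    exact (integrable_member75 ν hp _).const_mul _

end OneField

/-- **LEAF PBQ.0.D5 `PBQ973.SwapDnSuppQC973`** from the key identity downstairs. -/
theorem swapDnSuppQC_of75 (F : Type) [Field F] [NumberField F]
    (hS : PBQ973.SwapDnSumQC973 F) : PBQ973.SwapDnSuppQC973 F := by
  intro hsq hiq Φe B hB hram g hg 𝔫 h𝔫 μr μc hμr hμc T₀ n n₀ m hexp c hc c₁ Φ₁ F₁ hA fb hfb
    Ω iT iC iT2 iSC iM iB ν iF T T' φ₀ Φ f₀ F0 F1 hdat a t
  obtain ⟨X, cx, hprop, hid⟩ := hS hsq hiq Φe B hB hram g hg 𝔫 h𝔫 μr μc hμr hμc T₀ n n₀ m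
    hexp c hc c₁ Φ₁ F₁ hA fb hfb Ω iT iC iT2 iSC iM iB ν iF T T' φ₀ Φ f₀ F0 F1 hdat
  obtain ⟨-, -, -, -, -, hc0, hc1, -, -, -, -, hf0, hf1⟩ := hdat
  -- the members of the first pair of the type `t`
  have hcont : Continuous (fun q : Ω × G ℚ =>
      pureQ298 (T q.1) (f₀ q.1) (archQ973 F0 F1 t q.1) q.2) := by
    simp only [one_mul] at hc0 hc1
    cases t
    · exact hc0
    · exact hc1
  have hF₁ : ∀ h : G ℚ, F₁ t [] h
      = ∫ ω, pureQ298 (T ω) (f₀ ω) (archQ973 F0 F1 t ω) h ∂ν := by
    intro h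
    have h0 := hf0 h
    have h1 := hf1 h
    simp only [one_mul] at h0 h1
    cases t
    · exact h0
    · exact h1
  obtain ⟨C, hC, hsupp⟩ := hA.dn1_supp t [] (by simp)
  have e : ∀ y, swapDnFnQ973 (toBase962_732 B) T₀ fb a ν T f₀ (archQ973 F0 F1 t) y
      = a * ∑ x ∈ X, cx x * F₁ t [] (x⁻¹ * y) := by
    intro y
    have e1 : (fun ω => a * pureQ298 (T ω) (swDnQ973 (toBase962_732 B) T₀ fb (f₀ ω))
        (archQ973 F0 F1 t ω) y)
        = fun ω => a * ∑ x ∈ X, cx x
            * pureQ298 (T ω) (f₀ ω) (archQ973 F0 F1 t ω) (x⁻¹ * y) := by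
      funext ω
      rw [hid t ω y]
    show ∫ ω, a * pureQ298 (T ω) (swDnQ973 (toBase962_732 B) T₀ fb (f₀ ω))
        (archQ973 F0 F1 t ω) y ∂ν = _
    rw [e1, integral_wsum75 ν
      (p := fun ω => pureQ298 (T ω) (f₀ ω) (archQ973 F0 F1 t ω)) hcont a X cx y]
    congr 1
    refine Finset.sum_congr rfl fun x _ => ?_
    rw [hF₁]
  refine isIwSupported_ltr75 1 (fun _ => (toBase962_732 B).u) hC hsupp X
    (fun x hx j _ => (hprop x hx).2.2) ?_
  intro y hy
  rw [e y] at hy
  have h1 : ∑ x ∈ X, cx x * F₁ t [] (x⁻¹ * y) ≠ 0 := right_ne_zero_of_mul hy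
  obtain ⟨x, hx, hne⟩ := Finset.exists_ne_zero_of_sum_ne_zero h1
  exact ⟨x, hx, right_ne_zero_of_mul hne⟩

end Fermat.Agent.LT.T7.H75.SQ

end
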