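import Mathlib
import Fermat.Agent.LT.T7.H470.WtDown
import Fermat.Agent.LT.T5.H942.RegAux

/-!
# Row LT, tower T7, the swap: THE KEY IDENTITY DOWNSTAIRS, one field, any archimedean factor
# (helper75)

OFF-MAIN.  No hole, nothing assumed.  ADDITIVE (namespace `Fermat.Agent.LT.T7.H75.SQ`).

`pureA75 T f₀ A` is the pure tensor `⊗_{v ∈ T} f₀_v ⊗ A ⊗ ⊗_{v ∉ T} 1_{GL₂(𝒪_v)}` with an
ARBITRARY factor `A : G K → ℂ` which is invariant under the left translations by the elements
which are trivial at infinity (`H305.pure305`: `A = ∏_w F_w ∘ infGL305 w`; `MQ298.pureQ298`: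
`A = Fr ∘ reGLQ298`).

    wtA_induct75 : local decompositions `c_v = ∑_{r ∈ R_v} c_v(r) 1_{r U(m v)}`, `v ∈ A`, with
      representatives which are Iwahori at `u`  ⟹
      ∃ s β, (the elements of `s` are trivial at infinity and outside `A`, Iwahori at `u`) ∧
        ∑_{x ∈ s} β(x) pureA75 T f₀ Ar (x⁻¹ ·) = pureA75 T (c on A, f₀ outside) Ar
        for all pure tensors with unit components at `A ⊆ T`.

Method: the induction over the places of helper470 (`H470.wt_induct470`, leaf
`B970.WtDownC970`), with the representatives taken IN THE SUPPORT (`local_decomp75`), so that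
the translating elements are Iwahori at `u`.
-/

set_option autoImplicit false
set_option linter.style.haveILetI false
set_option linter.unusedSectionVars false
set_option linter.unusedVariables false

open AutomorphicForm IsDedekindDomain NumberField MeasureTheory
open scoped ComplexConjugate

noncomputable section

namespace Fermat.Agent.LT.T7.H75.SQ

open Fermat.Agent.LT Fermat.Agent.LT.H556 Fermat.Agent.LT.H556.A0 Fermat.Agent.LT.T7
open Fermat.Agent.LT.T7.H305 Fermat.Agent.LT.T7.H893 Fermat.Agent.LT.H129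

attribute [local instance] Fermat.Agent.LT.T5.instMeasurableSpaceG

/-! ## 1. Local -/

section Local

variable {k : Type} [Field k] [Valued k T6.Γ₀]

/-- The identity is Iwahori. -/
theorem inIw_one75 : InIw893 (1 : GL (Fin 2) k) := by
  refine ⟨fun i j => H470.val_one_entry470 i j, fun i j => ?_, ?_⟩
  · rw [inv_one]
    exact H470.val_one_entry470 i j
  · show Valued.v ((1 : Matrix (Fin 2) (Fin 2) k) 1 0) < (1 : T6.Γ₀)
    rw [Matrix.one_apply_ne (by decide), map_zero]
    exact zero_lt_one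

/-- A right `U(n)`-invariant function of finite support modulo `U(n)` is a finite combination
of left translates of the unit function, WITH REPRESENTATIVES IN ITS SUPPORT. -/
theorem local_decomp75 (n : ℕ) (φ : GL (Fin 2) k → ℂ)
    (hinv : ∀ g u : GL (Fin 2) k, T6.InU n u → φ (g * u) = φ g)
    (hfin : T6.HasFinSupp (T6.InU n) φ) :
    ∃ R : Finset (GL (Fin 2) k), (∀ r ∈ R, φ r ≠ 0) ∧ ∀ g : GL (Fin 2) k,
      ∑ r ∈ R, φ r * unitFn893 n (r⁻¹ * g) = φ g := by
  classical
  obtain ⟨R, hR⟩ := H470.local_decomp470 n φ hinv hfin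
  refine ⟨R.filter (fun r => φ r ≠ 0), fun r hr => (Finset.mem_filter.1 hr).2, fun g => ?_⟩
  rw [← hR g]
  refine Finset.sum_filter_of_ne fun r _ h h0 => h ?_
  rw [h0, zero_mul]

/-- The support of the Iwahori function. -/
theorem inIw_of_ne75 {r : GL (Fin 2) k} (h : (iwFn893 r : ℂ) ≠ 0) : InIw893 r := by
  classical
  by_contra hn
  apply h
  unfold iwFn893
  rw [if_neg hn]

end Local

/-! ## 2. Pure tensors with an arbitrary archimedean factor -/

section Global

variable {K : Type} [Field K] [NumberField K]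

open Classical in
/-- The pure tensor with the components `f₀` at the places of `T` and the factor `A`. -/
def pureA75 (T : Finset (HeightOneSpectrum (𝓞 K)))
    (f₀ : ∀ v : HeightOneSpectrum (𝓞 K), GL (Fin 2) (v.adicCompletion K) → ℂ)
    (A : G K → ℂ) (h : G K) : ℂ :=
  if OutT305 T h then (∏ v ∈ T, f₀ v (finGL305 v h)) * A h else 0

theorem pureA_eq75 (T : Finset (HeightOneSpectrum (𝓞 K)))
    (f₀ : ∀ v : HeightOneSpectrum (𝓞 K), GL (Fin 2) (v.adicCompletion K) → ℂ)
    (A : G K → ℂ) (h : G K) :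
    pureA75 T f₀ A h
      = @ite ℂ (OutT305 T h) (Classical.propDecidable _)
          ((∏ v ∈ T, f₀ v (finGL305 v h)) * A h) 0 := rfl

/-- An element whose component at `u` is Iwahori is Iwahori at `u`. -/
theorem inIwahori_of_comp75 {u : HeightOneSpectrum (𝓞 K)} {g : G K}
    (h : InIw893 (finCompHom129 u g)) : T5.InIwahori u g := by
  obtain ⟨h1, h2, h3⟩ := h
  refine ⟨?_, ?_, ?_⟩
  · rw [isIntegralAt_iff129]
    intro i j
    rw [HeightOneSpectrum.mem_adicCompletionIntegers]
    exact h1 i j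
  · rw [isIntegralAt_iff129, map_inv]
    intro i j
    rw [HeightOneSpectrum.mem_adicCompletionIntegers]
    exact h2 i j
  · exact h3

theorem inIwahori_one75 (u : HeightOneSpectrum (𝓞 K)) : T5.InIwahori u (1 : G K) := by
  apply inIwahori_of_comp75
  rw [map_one]
  exact inIw_one75

/-- The local embedding at `v₀` of `r` is Iwahori at `u` if `r` is Iwahori or `v₀ ≠ u`. -/
theorem inIwahori_locFin75 (u v₀ : HeightOneSpectrum (𝓞 K))
    (r : GL (Fin 2) (v₀.adicCompletion K)) (h : v₀ = u → InIw893 r) :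
    T5.InIwahori u (locFin129 v₀ r) := by
  apply inIwahori_of_comp75
  by_cases hv : v₀ = u
  · subst hv
    rw [finCompHom129_locFin129]
    exact h rfl
  · rw [finCompHom129_locFin129_of_ne v₀ r (fun e => hv e.symm)]
    exact inIw_one75

open Classical in
theorem pureA_transl75 (T : Finset (HeightOneSpectrum (𝓞 K)))
    (f₀ : ∀ v : HeightOneSpectrum (𝓞 K), GL (Fin 2) (v.adicCompletion K) → ℂ)
    {A : G K → ℂ}
    (hA : ∀ x y : G K, (∀ w : InfinitePlace K, TrivAtInf w x) → A (x⁻¹ * y) = A y)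
    {v₀ : HeightOneSpectrum (𝓞 K)} (hv₀ : v₀ ∈ T)
    (r : GL (Fin 2) (v₀.adicCompletion K)) (h : G K) :
    pureA75 T f₀ A ((locFin129 v₀ r)⁻¹ * h)
      = pureA75 T (Function.update f₀ v₀ (fun g => f₀ v₀ (r⁻¹ * g))) A h := by
  classical
  have hO : OutT305 T ((locFin129 v₀ r)⁻¹ * h) ↔ OutT305 T h :=
    H470.outT_transl470 T (fun v hv => finCompHom129_locFin129_of_ne v₀ r
      (fun e => hv (e ▸ hv₀))) h
  have hinf : A ((locFin129 v₀ r)⁻¹ * h) = A h :=
    hA _ _ (fun w => H470.trivAtInf_locFin470 v₀ r w)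
  have hfin : ∀ v ∈ T, f₀ v (finGL305 v ((locFin129 v₀ r)⁻¹ * h))
      = Function.update f₀ v₀ (fun g => f₀ v₀ (r⁻¹ * g)) v (finGL305 v h) := by
    intro v _
    by_cases hv : v = v₀
    · subst hv
      rw [Function.update_self, map_mul, map_inv, H470.finGL305_eq470 v (locFin129 v r),
        finCompHom129_locFin129]
    · rw [Function.update_of_ne hv, map_mul, map_inv, H470.finGL305_eq470 v (locFin129 v₀ r),
        finCompHom129_locFin129_of_ne v₀ r hv, inv_one, one_mul]
  rw [pureA_eq75, pureA_eq75]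
  simp only [hO, hinf]
  rw [Finset.prod_congr rfl hfin]

open Classical in
/-- The pure tensor without the component at `v₀`. -/
def restA75 (T : Finset (HeightOneSpectrum (𝓞 K)))
    (f₀ : ∀ v : HeightOneSpectrum (𝓞 K), GL (Fin 2) (v.adicCompletion K) → ℂ)
    (A : G K → ℂ) (v₀ : HeightOneSpectrum (𝓞 K)) (y : G K) : ℂ :=
  if OutT305 T y then (∏ v ∈ T.erase v₀, f₀ v (finGL305 v y)) * A y else 0

open Classical in
theorem pureA_update75 (T : Finset (HeightOneSpectrum (𝓞 K)))
    (f₀ : ∀ v : HeightOneSpectrum (𝓞 K), GL (Fin 2) (v.adicCompletion K) → ℂ)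
    (A : G K → ℂ) {v₀ : HeightOneSpectrum (𝓞 K)} (hv₀ : v₀ ∈ T)
    (ψ : GL (Fin 2) (v₀.adicCompletion K) → ℂ) (y : G K) :
    pureA75 T (Function.update f₀ v₀ ψ) A y = ψ (finGL305 v₀ y) * restA75 T f₀ A v₀ y := by
  classical
  rw [pureA_eq75]
  show _ = ψ (finGL305 v₀ y) * @ite ℂ (OutT305 T y) (Classical.propDecidable _)
    ((∏ v ∈ T.erase v₀, f₀ v (finGL305 v y)) * A y) 0
  by_cases hO : OutT305 T y
  · rw [if_pos hO, if_pos hO, ← Finset.mul_prod_erase T _ hv₀, Function.update_self, mul_assoc]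
    congr 2
    refine Finset.prod_congr rfl fun v hv => ?_
    rw [Function.update_of_ne (Finset.ne_of_mem_erase hv)]
  · rw [if_neg hO, if_neg hO, mul_zero]

/-! ## 3. The induction over the places -/

open Classical in
/-- **THE KEY IDENTITY DOWNSTAIRS, one field, any archimedean factor.** -/
theorem wtA_induct75 (u : HeightOneSpectrum (𝓞 K)) (m : HeightOneSpectrum (𝓞 K) → ℕ)
    (c : ∀ v : HeightOneSpectrum (𝓞 K), GL (Fin 2) (v.adicCompletion K) → ℂ)
    (A : Finset (HeightOneSpectrum (𝓞 K)))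
    (hL : ∀ v ∈ A, ∃ R : Finset (GL (Fin 2) (v.adicCompletion K)),
      (∀ r ∈ R, v = u → InIw893 r) ∧
      ∀ g : GL (Fin 2) (v.adicCompletion K),
        ∑ r ∈ R, c v r * unitFn893 (m v) (r⁻¹ * g) = c v g) :
    ∃ (s : Finset (G K)) (β : G K → ℂ),
      (∀ x ∈ s, (∀ w : InfinitePlace K, TrivAtInf w x) ∧
        (∀ v : HeightOneSpectrum (𝓞 K), v ∉ A → TrivAtFin v x) ∧ T5.InIwahori u x) ∧
      ∀ (T : Finset (HeightOneSpectrum (𝓞 K)))
        (f₀ : ∀ v : HeightOneSpectrum (𝓞 K), GL (Fin 2) (v.adicCompletion K) → ℂ)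
        (Ar : G K → ℂ),
        (∀ x y : G K, (∀ w : InfinitePlace K, TrivAtInf w x) → Ar (x⁻¹ * y) = Ar y) →
        A ⊆ T → (∀ v ∈ A, f₀ v = unitFn893 (m v)) →
        ∀ y : G K, ∑ x ∈ s, β x * pureA75 T f₀ Ar (x⁻¹ * y)
          = pureA75 T (fun v => if v ∈ A then c v else f₀ v) Ar y := by
  induction A using Finset.induction_on with
  | empty =>
    refine ⟨{1}, fun _ => 1, ?_, ?_⟩
    · intro x hx
      rw [Finset.mem_singleton] at hx
      subst hx
      exact ⟨fun w => (trivAtInf_iff129 w 1).2 (map_one _),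
        fun v _ => (trivAtFin_iff129 v 1).2 (map_one _), inIwahori_one75 u⟩
    · intro T f₀ Ar _ _ _ y
      simp
  | insert v₀ A hv₀ ih =>
    obtain ⟨s, β, hsupp, hrep⟩ := ih (fun v hv => hL v (Finset.mem_insert_of_mem hv))
    obtain ⟨R, hRI, hR⟩ := hL v₀ (Finset.mem_insert_self _ _)
    let X : G K × GL (Fin 2) (v₀.adicCompletion K) → G K := fun p => p.1 * locFin129 v₀ p.2
    refine ⟨(s ×ˢ R).image X,
      fun z => ∑ p ∈ (s ×ˢ R) with X p = z, β p.1 * c v₀ p.2, ?_, ?_⟩
    · intro z hz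
      obtain ⟨p, hp, rfl⟩ := Finset.mem_image.mp hz
      have hp1 : p.1 ∈ s := (Finset.mem_product.mp hp).1
      have hp2 : p.2 ∈ R := (Finset.mem_product.mp hp).2
      refine ⟨fun w => ?_, fun v hv => ?_, ?_⟩
      · rw [trivAtInf_iff129]
        show infCompHom129 w (p.1 * locFin129 v₀ p.2) = 1
        rw [map_mul, infCompHom129_locFin129, mul_one]
        exact (trivAtInf_iff129 w _).1 ((hsupp p.1 hp1).1 w)
      · rw [trivAtFin_iff129]
        show finCompHom129 v (p.1 * locFin129 v₀ p.2) = 1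
        have hv1 : v ≠ v₀ := fun e => hv (e ▸ Finset.mem_insert_self _ _)
        have hv2 : v ∉ A := fun e => hv (Finset.mem_insert_of_mem e)
        rw [map_mul, finCompHom129_locFin129_of_ne v₀ p.2 hv1, mul_one]
        exact (trivAtFin_iff129 v _).1 ((hsupp p.1 hp1).2.1 v hv2)
      · exact T5.H942.inIwahori_mul942 u (hsupp p.1 hp1).2.2
          (inIwahori_locFin75 u v₀ p.2 (hRI p.2 hp2))
    · intro T f₀ Ar hAr hT hf₀ y
      have hv₀T : v₀ ∈ T := hT (Finset.mem_insert_self _ _)
      have hAT : A ⊆ T := fun v hv => hT (Finset.mem_insert_of_mem hv)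
      rw [Finset.sum_image' (fun p => β p.1 * c v₀ p.2 * pureA75 T f₀ Ar ((X p)⁻¹ * y))]
      swap
      · intro p _
        rw [Finset.sum_mul]
        refine Finset.sum_congr rfl fun q hq => ?_
        rw [(Finset.mem_filter.mp hq).2]
      rw [Finset.sum_product]
      have e1 : ∀ (x : G K) (r : GL (Fin 2) (v₀.adicCompletion K)),
          pureA75 T f₀ Ar ((X (x, r))⁻¹ * y)
            = pureA75 T (Function.update f₀ v₀ (fun g => f₀ v₀ (r⁻¹ * g))) Ar (x⁻¹ * y) := by
        intro x r
        rw [← pureA_transl75 T f₀ hAr hv₀T r (x⁻¹ * y)]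
        congr 1
        simp only [X, mul_inv_rev, mul_assoc]
      simp only [e1]
      rw [Finset.sum_comm]
      have e2 : ∀ r : GL (Fin 2) (v₀.adicCompletion K),
          ∑ x ∈ s, β x * c v₀ r
              * pureA75 T (Function.update f₀ v₀ (fun g => f₀ v₀ (r⁻¹ * g))) Ar (x⁻¹ * y)
            = c v₀ r * (unitFn893 (m v₀) (r⁻¹ * finGL305 v₀ y)
                * restA75 T (fun v => if v ∈ A then c v else f₀ v) Ar v₀ y) := by
        intro r
        have hf : ∀ v ∈ A, Function.update f₀ v₀ (fun g => f₀ v₀ (r⁻¹ * g)) v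
            = unitFn893 (m v) := by
          intro v hv
          rw [Function.update_of_ne (ne_of_mem_of_not_mem hv hv₀),
            hf₀ v (Finset.mem_insert_of_mem hv)]
        have e3 : (fun v => if v ∈ A then c v
              else Function.update f₀ v₀ (fun g => f₀ v₀ (r⁻¹ * g)) v)
            = Function.update (fun v => if v ∈ A then c v else f₀ v) v₀
                (fun g => unitFn893 (m v₀) (r⁻¹ * g)) := by
          funext v
          by_cases hv : v = v₀
          · subst hv
            rw [if_neg hv₀, Function.update_self, Function.update_self,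
              hf₀ v (Finset.mem_insert_self _ _)]
          · rw [Function.update_of_ne hv, Function.update_of_ne hv]
        calc ∑ x ∈ s, β x * c v₀ r
              * pureA75 T (Function.update f₀ v₀ (fun g => f₀ v₀ (r⁻¹ * g))) Ar (x⁻¹ * y)
            = c v₀ r * ∑ x ∈ s, β x
                * pureA75 T (Function.update f₀ v₀ (fun g => f₀ v₀ (r⁻¹ * g))) Ar
                    (x⁻¹ * y) := by
              rw [Finset.mul_sum]
              refine Finset.sum_congr rfl fun x _ => ?_
              ring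
          _ = c v₀ r * pureA75 T (fun v => if v ∈ A then c v
                else Function.update f₀ v₀ (fun g => f₀ v₀ (r⁻¹ * g)) v) Ar y := by
              rw [hrep T _ Ar hAr hAT hf y]
          _ = c v₀ r * pureA75 T (Function.update (fun v => if v ∈ A then c v else f₀ v) v₀
                (fun g => unitFn893 (m v₀) (r⁻¹ * g))) Ar y := by
              rw [e3]
          _ = c v₀ r * (unitFn893 (m v₀) (r⁻¹ * finGL305 v₀ y)
                * restA75 T (fun v => if v ∈ A then c v else f₀ v) Ar v₀ y) := by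
              rw [pureA_update75 T _ Ar hv₀T]
      simp only [e2]
      have e4 : (fun v => if v ∈ insert v₀ A then c v else f₀ v)
          = Function.update (fun v => if v ∈ A then c v else f₀ v) v₀ (c v₀) := by
        funext v
        by_cases hv : v = v₀
        · subst hv
          rw [if_pos (Finset.mem_insert_self _ _), Function.update_self]
        · rw [Function.update_of_ne hv]
          by_cases hvA : v ∈ A
          · rw [if_pos (Finset.mem_insert_of_mem hvA), if_pos hvA]
          · rw [if_neg hvA, if_neg (fun e => (Finset.mem_insert.mp e).elim hv hvA)]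
      rw [e4, pureA_update75 T _ Ar hv₀T, ← hR (finGL305 v₀ y), Finset.sum_mul]
      refine Finset.sum_congr rfl fun r _ => ?_
      ring

open Classical in
/-- **The swap downstairs as a combination of left translates**: the components `iwFn893` at
`u` and `b v` at the other places of `T₀` (bi-invariant of finite support), for a level with
`u ∣ 𝔫`. -/
theorem swap_sum75 {𝔫 : Ideal (𝓞 K)} (h𝔫 : 𝔫 ≠ ⊥) {m : HeightOneSpectrum (𝓞 K) → ℕ}
    (hm : IsLevelOf893 𝔫 m) {u : HeightOneSpectrum (𝓞 K)} (hu : u.asIdeal ∣ 𝔫)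
    (T₀ : Finset (HeightOneSpectrum (𝓞 K)))
    (b : ∀ v : HeightOneSpectrum (𝓞 K), GL (Fin 2) (v.adicCompletion K) → ℂ)
    (hb : ∀ v ∈ T₀.erase u,
      T6.IsBiInv (T6.InU (m v)) (b v) ∧ T6.HasFinSupp (T6.InU (m v)) (b v)) :
    ∃ (s : Finset (G K)) (β : G K → ℂ),
      (∀ x ∈ s, (∀ w : InfinitePlace K, TrivAtInf w x) ∧
        (∀ v : HeightOneSpectrum (𝓞 K), v ∉ T₀ → TrivAtFin v x) ∧ T5.InIwahori u x) ∧
      ∀ (T : Finset (HeightOneSpectrum (𝓞 K)))
        (f₀ : ∀ v : HeightOneSpectrum (𝓞 K), GL (Fin 2) (v.adicCompletion K) → ℂ)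
        (Ar : G K → ℂ),
        (∀ x y : G K, (∀ w : InfinitePlace K, TrivAtInf w x) → Ar (x⁻¹ * y) = Ar y) →
        T₀ ⊆ T → (∀ v ∈ T₀, f₀ v = unitFn893 (m v)) →
        ∀ y : G K, ∑ x ∈ s, β x * pureA75 T f₀ Ar (x⁻¹ * y)
          = pureA75 T (fun v => if v ∈ T₀ then (if v = u then iwFn893 else b v) else f₀ v)
              Ar y := by
  classical
  have hmu : 1 ≤ m u := H470.one_le_of_dvd470 hm hu
  refine wtA_induct75 u m (fun v => if v = u then iwFn893 else b v) T₀ fun v hv => ?_
  by_cases hvu : v = u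
  · simp only [if_pos hvu]
    have hm1 : 1 ≤ m v := hvu ▸ hmu
    obtain ⟨R, hR0, hR⟩ := local_decomp75 (m v) iwFn893
      (fun g u' hu' => H470.iwFn_mul470 hm1 g u' hu') (H470.iw_finSupp470 h𝔫 hm v)
    exact ⟨R, fun r hr _ => inIw_of_ne75 (hR0 r hr), hR⟩
  · simp only [if_neg hvu]
    obtain ⟨hbi, hfs⟩ := hb v (Finset.mem_erase.mpr ⟨hvu, hv⟩)
    obtain ⟨R, -, hR⟩ := local_decomp75 (m v) (b v) (fun g u' hu' => by
      have := hbi 1 u' g (H470.inU_one470 _) hu'
      rwa [one_mul] at this) hfs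
    exact ⟨R, fun r _ h => absurd h hvu, hR⟩

end Global

end Fermat.Agent.LT.T7.H75.SQ

end
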