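import Mathlib
import Fermat.Agent.LT.T7.H973.PreBQSpec
import Fermat.Agent.LT.T7.H75.SwapSum
import Fermat.Agent.LT.T7.H75.SwapDnSuppQ

/-!
# Row LT, tower T7, the swap over `ℚ` (cut of helper973): THE KEY IDENTITY DOWNSTAIRS
# `PBQ973.SwapDnSumQC973` and the leaf `PBQ973.SwapDnSuppQC973` UNCONDITIONAL (helper75,
# registry rows 3131 (spare) / 3142 (owner))

OFF-MAIN.  No hole, nothing assumed.  ADDITIVE (namespace `Fermat.Agent.LT.T7.H75.SQ`).

    swapDnSumQC75  (F) : PBQ973.SwapDnSumQC973 F         (tool leaf D0, both types)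
    swapDnSuppQC75 (F) : PBQ973.SwapDnSuppQC973 F        (leaf D5, both types)

VERBATIM vs `LT/T7/H973/PreBQSpec.lean` (helper973@a2ff41d85, sha256 200eee4e), UNCONDITIONAL.

Proof.  `swap_sum75` (`SwapSum.lean`: the induction over the places of the level of helper470,
with representatives in the supports, for pure tensors with an arbitrary archimedean factor)
for `K = ℚ`, the factor `Fr ∘ reGLQ298` (invariant under the left translations by the elements
which are trivial at infinity), the level exponents `m` (`u ∣ 𝔫`, so `m u ≥ 1` and the Iwahori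
function is right `U(m u)`-invariant of finite support), the partner family `fb`
(`IsBadPartQ973.inv_down`) and the unit components of the first pair (`LocAQ801`).  THE SAME
elements and weights for the two types and all parameters.
-/

set_option autoImplicit false
set_option linter.style.haveILetI false
set_option linter.unusedSectionVars false
set_option linter.unusedVariables false

open AutomorphicForm IsDedekindDomain NumberField MeasureTheory
open scoped ComplexConjugate

noncomputable section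

namespace Fermat.Agent.LT.T7.H75.SQ

open Fermat.Agent.LT Fermat.Agent.LT.H556 Fermat.Agent.LT.H556.A0 Fermat.Agent.LT.T7
open Fermat.Agent.LT.T7.H305 Fermat.Agent.LT.T7.L2Q Fermat.Agent.LT.T7.H893
open Fermat.Agent.LT.T7.H962 Fermat.Agent.LT.T7.H732 Fermat.Agent.LT.T7.MQ298
open Fermat.Agent.LT.T7.CQ801 Fermat.Agent.LT.T7.PBQ973

attribute [local instance] Fermat.Agent.LT.T5.instMeasurableSpaceG

/-- The real component of an element which is trivial at infinity. -/
theorem reGL_of_triv75 {x : G ℚ} (h : ∀ w : InfinitePlace ℚ, TrivAtInf w x) :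
    reGLQ298 x = 1 := by
  apply Units.ext
  ext i j
  show InfinitePlace.Completion.extensionEmbeddingOfIsReal Rat.isReal_infinitePlace
      (((x : Matrix (Fin 2) (Fin 2) (Adl ℚ)) i j).1 Rat.infinitePlace)
    = (1 : Matrix (Fin 2) (Fin 2) ℝ) i j
  rw [h Rat.infinitePlace i j, Matrix.one_apply, Matrix.one_apply]
  split_ifs
  · rw [map_one]
  · rw [map_zero]

/-- The factor at the real place is invariant under the left translations by the elements
which are trivial at infinity. -/
theorem reGL_transl75 (Fr : GL (Fin 2) ℝ → ℂ) (x y : G ℚ)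
    (h : ∀ w : InfinitePlace ℚ, TrivAtInf w x) :
    (fun z : G ℚ => Fr (reGLQ298 z)) (x⁻¹ * y) = (fun z : G ℚ => Fr (reGLQ298 z)) y := by
  show Fr (reGLQ298 (x⁻¹ * y)) = Fr (reGLQ298 y)
  rw [map_mul, map_inv, reGL_of_triv75 h, inv_one, one_mul]

/-- The pure tensors over `ℚ` are pure tensors with a factor at infinity. -/
theorem pureQ_eq75 (T : Finset (HeightOneSpectrum (𝓞 ℚ)))
    (f₀ : ∀ v : HeightOneSpectrum (𝓞 ℚ), GL (Fin 2) (v.adicCompletion ℚ) → ℂ)
    (Fr : GL (Fin 2) ℝ → ℂ) (h : G ℚ) :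
    pureQ298 T f₀ Fr h = pureA75 T f₀ (fun z : G ℚ => Fr (reGLQ298 z)) h := rfl

/-- **LEAF PBQ.0.D0 `PBQ973.SwapDnSumQC973`: THE KEY IDENTITY DOWNSTAIRS over `ℚ`.** -/
theorem swapDnSumQC75 (F : Type) [Field F] [NumberField F] : PBQ973.SwapDnSumQC973 F := by
  classical
  intro hsq hiq Φe B hB hram g hg 𝔫 h𝔫 μr μc hμr hμc T₀ n n₀ m hexp c hc c₁ Φ₁ F₁ hA fb hfb
    Ω iT iC iT2 iSC iM iB ν iF T T' φ₀ Φ f₀ F0 F1 hdat
  have huT₀ : (toBase962_732 B).u ∈ T₀ := (hexp.div _).2 h𝔫.u_level
  obtain ⟨s, β, hs, hrep⟩ := swap_sum75 h𝔫.level_ne hexp.lev_dn h𝔫.u_level T₀ fb hfb.inv_down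
  refine ⟨s, β, hs, fun t ω y => ?_⟩
  have hloc := hdat.1 ω
  have h1 := hrep (T ω) (f₀ ω) (fun z : G ℚ => archQ973 F0 F1 t ω (reGLQ298 z))
    (reGL_transl75 _) hloc.1 hloc.2.2.1 y
  have e : swDnQ973 (toBase962_732 B) T₀ fb (f₀ ω)
      = fun v => if v ∈ T₀ then (if v = (toBase962_732 B).u then iwFn893 else fb v)
          else f₀ ω v := by
    funext v
    show (if v = (toBase962_732 B).u then iwFn893 else if v ∈ T₀ then fb v else f₀ ω v) = _
    by_cases hvu : v = (toBase962_732 B).u
    · rw [if_pos hvu, if_pos (hvu ▸ huT₀), if_pos hvu]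
    · rw [if_neg hvu]
      by_cases hvT : v ∈ T₀
      · rw [if_pos hvT, if_pos hvT, if_neg hvu]
      · rw [if_neg hvT, if_neg hvT]
  rw [e, pureQ_eq75, ← h1]
  rfl

/-- **LEAF PBQ.0.D5 `PBQ973.SwapDnSuppQC973`**, UNCONDITIONAL. -/
theorem swapDnSuppQC75 (F : Type) [Field F] [NumberField F] : PBQ973.SwapDnSuppQC973 F :=
  swapDnSuppQC_of75 F (swapDnSumQC75 F)

end Fermat.Agent.LT.T7.H75.SQ

end
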