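import Mathlib
import Fermat.Agent.LT.T7.H973.PreBQSpec
import Fermat.Agent.LT.T7.H75.SwapDnSumQ
import Fermat.Agent.LT.T7.H459.SwapDnInv

/-!
# Row LT, tower T7, the swap over `ℚ` (cut of helper973): leaves D1 `SwapDnTestQC973` and D6
# `SwapMemDnQC973`, UNCONDITIONAL (helper75, spares of registry rows 3138 / 3143)

OFF-MAIN.  No hole, nothing assumed.  ADDITIVE (namespace `Fermat.Agent.LT.T7.H75.SQ`).

    swapDnTestQC75 (F) : PBQ973.SwapDnTestQC973 F      (field dn_test, both types)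
    swapMemDnQC75  (F) : PBQ973.SwapMemDnQC973 F       (members downstairs, both types)

VERBATIM vs `LT/T7/H973/PreBQSpec.lean` (helper973@a2ff41d85, sha256 200eee4e), UNCONDITIONAL.

Proof.  `isTestFn_wsum75` (one field, any `K_∞`-type): a finite combination of left translates
of a test function by elements which are trivial at infinity is a test function, PROVIDED it is
bi-invariant under the level group (continuity, compact support, smoothness at infinity and the
`K_∞`-equivariance on both sides pass to the combination: the translating elements commute with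
`K_∞`; the left invariance under `U(𝔫)` does not).  The combination is the key identity
`swapDnSumQC75`; the bi-invariance under `U(𝔫)` is read off the components:
`H459.pureQ_swDn_inv459` (members), `H459.swapDnInvQC459` (the average), helper459, byte copy.
-/

set_option autoImplicit false
set_option linter.style.haveILetI false
set_option linter.unusedSectionVars false
set_option linter.unusedVariables false

open AutomorphicForm IsDedekindDomain NumberField MeasureTheory
open scoped ComplexConjugate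

noncomputable section

namespace Fermat.Agent.LT.T7.H75.SQ

open Fermat.Agent.LT Fermat.Agent.LT.H556 Fermat.Agent.LT.H556.A0 Fermat.Agent.LT.T7
open Fermat.Agent.LT.T7.H305 Fermat.Agent.LT.T7.L2Q Fermat.Agent.LT.T7.H893
open Fermat.Agent.LT.T7.H962 Fermat.Agent.LT.T7.H732 Fermat.Agent.LT.T7.MQ298
open Fermat.Agent.LT.T7.CQ801 Fermat.Agent.LT.T7.PBQ973 Fermat.Agent.LT.H129

attribute [local instance] Fermat.Agent.LT.T5.instMeasurableSpaceG

section OneField

variable {K : Type} [Field K] [NumberField K]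

/-- An element which is trivial at infinity commutes with an element which is trivial at the
finite places. -/
theorem commute_fin_inf75 {b r : G K} (hb : ∀ w : InfinitePlace K, TrivAtInf w b)
    (hr : ∀ v : HeightOneSpectrum (𝓞 K), TrivAtFin v r) : b * r = r * b := by
  apply G_ext129
  · intro w
    rw [map_mul, map_mul, (trivAtInf_iff129 w b).1 (hb w), one_mul, mul_one]
  · intro v
    rw [map_mul, map_mul, (trivAtFin_iff129 v r).1 (hr v), one_mul, mul_one]

theorem trivAtInf_inv75 {b : G K} (hb : ∀ w : InfinitePlace K, TrivAtInf w b) :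
    ∀ w : InfinitePlace K, TrivAtInf w b⁻¹ := by
  intro w
  rw [trivAtInf_iff129, map_inv, (trivAtInf_iff129 w b).1 (hb w), inv_one]

/-- **A finite combination of left translates of a test function**, by elements which are
trivial at infinity, which is bi-invariant under the level group, is a test function. -/
theorem isTestFn_wsum75 {𝔫 : Ideal (𝓞 K)} {τ : G K → ℂ} {ψ : G K → ℂ}
    (hψ : T5.IsTestFn 𝔫 τ ψ) (X : Finset (G K))
    (hX : ∀ x ∈ X, ∀ w : InfinitePlace K, TrivAtInf w x) (c : G K → ℂ) {φ : G K → ℂ}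
    (hφ : ∀ y, φ y = ∑ x ∈ X, c x * ψ (x⁻¹ * y))
    (hlev : ∀ u : G K, InLevelGroup 𝔫 u → ∀ y : G K, φ (u * y) = φ y ∧ φ (y * u) = φ y) :
    T5.IsTestFn 𝔫 τ φ := by
  have hφ' : φ = fun y => ∑ x ∈ X, c x * ψ (x⁻¹ * y) := funext hφ
  refine ⟨hψ.ktype, ?_, ?_, ?_, ?_⟩
  · rw [hφ']
    exact continuous_finsetSum _ fun x _ =>
      continuous_const.mul (hψ.cont.comp (continuous_const.mul continuous_id))
  · refine HasCompactSupport.intro
      (K := ⋃ x ∈ X, (fun z => x * z) '' tsupport ψ) ?_ ?_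
    · exact X.isCompact_biUnion fun x _ => hψ.supp.image (continuous_const.mul continuous_id)
    · intro y hy
      rw [hφ y]
      refine Finset.sum_eq_zero fun x hx => ?_
      have h0 : ψ (x⁻¹ * y) = 0 := by
        by_contra hne
        apply hy
        refine Set.mem_biUnion hx ⟨x⁻¹ * y, subset_tsupport _ hne, ?_⟩
        show x * (x⁻¹ * y) = y
        rw [mul_inv_cancel_left]
      rw [h0, mul_zero]
  · intro n h hfin hsm g
    have e : (fun t => φ (g * h t)) = fun t => ∑ x ∈ X, c x * ψ (x⁻¹ * g * h t) := by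
      funext t
      rw [hφ]
      refine Finset.sum_congr rfl fun x _ => ?_
      rw [mul_assoc]
    rw [e]
    exact ContDiff.sum fun x _ => contDiff_const.mul (hψ.smooth n h hfin hsm (x⁻¹ * g))
  · refine ⟨fun u hu g => (hlev u hu g).2, fun u hu g => (hlev u hu g).1,
      fun w k hk g => ?_, fun w k hk g => ?_⟩
    · rw [hφ, hφ, Finset.mul_sum]
      refine Finset.sum_congr rfl fun x _ => ?_
      rw [← mul_assoc, hψ.inv.arch_right w k hk]
      ring
    · rw [hφ, hφ, Finset.mul_sum]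
      refine Finset.sum_congr rfl fun x hx => ?_
      have hc : x⁻¹ * k = k * x⁻¹ :=
        commute_fin_inf75 (trivAtInf_inv75 (hX x hx)) hk.1.2
      rw [← mul_assoc, hc, mul_assoc, hψ.inv.arch_left w k hk]
      ring

end OneField

/-! ## The leaves -/

/-- **LEAF PBQ.0.D6 `PBQ973.SwapMemDnQC973`**, UNCONDITIONAL. -/
theorem swapMemDnQC75 (F : Type) [Field F] [NumberField F] : PBQ973.SwapMemDnQC973 F := by
  classical
  intro hsq hiq Φe B hB hram g hg 𝔫 h𝔫 μr μc hμr hμc T₀ n n₀ m hexp c hc c₁ Φ₁ F₁ hA fb hfb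
    Ω iT iC iT2 iSC iM iB ν iF T T' φ₀ Φ f₀ F0 F1 hdat a t
  obtain ⟨X, cx, hprop, hid⟩ := swapDnSumQC75 F hsq hiq Φe B hB hram g hg 𝔫 h𝔫 μr μc hμr hμc
    T₀ n n₀ m hexp c hc c₁ Φ₁ F₁ hA fb hfb Ω iT iC iT2 iSC iM iB ν iF T T' φ₀ Φ f₀ F0 F1 hdat
  have hfbI : ∀ v ∈ T₀.erase (toBase962_732 B).u, T6.IsBiInv (T6.InU (m v)) (fb v) :=
    fun v hv => (hfb.inv_down v hv).1
  have hsph : ∀ ω : Ω, ∀ v ∈ T ω, v ∉ T₀ → ∃ Av : (ℤ × ℤ) →₀ ℂ, IsSphFn893 (f₀ ω v) Av := by
    intro ω v hv hvT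
    obtain ⟨A, Av, hAv, -⟩ := (hdat.1 ω).2.2.2.2.1 v hv hvT
    exact ⟨Av, hAv⟩
  obtain ⟨-, -, ht0, ht1, -, hc0, hc1, -, hs0, hs1, -, -, -⟩ := hdat
  -- the members of the first pair of the type `t`
  have htest : ∀ ω : Ω, T5.IsTestFn 𝔫 t.type
      (fun h => 1 * pureQ298 (T ω) (f₀ ω) (archQ973 F0 F1 t ω) h) := by
    intro ω
    cases t
    · exact ht0 ω
    · exact ht1 ω
  have hcont : Continuous (fun q : Ω × G ℚ =>
      pureQ298 (T q.1) (f₀ q.1) (archQ973 F0 F1 t q.1) q.2) := by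
    simp only [one_mul] at hc0 hc1
    cases t
    · exact hc0
    · exact hc1
  have hsupp : ∃ C : Set (G ℚ), IsCompact C ∧ ∀ (ω : Ω) (h : G ℚ),
      pureQ298 (T ω) (f₀ ω) (archQ973 F0 F1 t ω) h ≠ 0 → h ∈ C := by
    cases t
    · exact hs0
    · exact hs1
  refine ⟨fun ω => ?_, ?_, ?_⟩
  · -- the members are test functions
    refine isTestFn_wsum75 (htest ω) X (fun x hx => (hprop x hx).1) (fun x => a * cx x)
      (fun y => ?_) (fun u hu y => ?_)
    · show a * pureQ298 (T ω) (swDnQ973 (toBase962_732 B) T₀ fb (f₀ ω))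
          (archQ973 F0 F1 t ω) y = _
      rw [hid t ω y, Finset.mul_sum]
      refine Finset.sum_congr rfl fun x _ => ?_
      ring
    · have hk := H459.isGood_of_level459 h𝔫.u_level hexp.lev_dn hu
      have h1 := H459.pureQ_swDn_inv459 (toBase962_732 B) T₀ (T ω) m fb (f₀ ω)
        (archQ973 F0 F1 t ω) hfbI (hsph ω) hk y
      exact ⟨by show a * _ = a * _; rw [h1.1], by show a * _ = a * _; rw [h1.2]⟩
  · -- joint continuity
    have e : (fun p : Ω × G ℚ => a * pureQ298 (T p.1) (swDnQ973 (toBase962_732 B) T₀ fb (f₀ p.1))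
        (archQ973 F0 F1 t p.1) p.2)
        = fun p : Ω × G ℚ => a * ∑ x ∈ X, cx x
            * pureQ298 (T p.1) (f₀ p.1) (archQ973 F0 F1 t p.1) (x⁻¹ * p.2) := by
      funext p
      rw [hid t p.1 p.2]
    rw [e]
    refine continuous_const.mul (continuous_finsetSum _ fun x _ => continuous_const.mul ?_)
    exact hcont.comp (continuous_fst.prodMk (continuous_const.mul continuous_snd))
  · -- one compact support
    obtain ⟨C, hC, hCs⟩ := hsupp
    refine ⟨⋃ x ∈ X, (fun z => x * z) '' C, ?_, fun ω h hne => ?_⟩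
    · exact X.isCompact_biUnion fun x _ => hC.image (continuous_const.mul continuous_id)
    · rw [hid t ω h] at hne
      obtain ⟨x, hx, hx0⟩ := Finset.exists_ne_zero_of_sum_ne_zero hne
      refine Set.mem_biUnion hx ⟨x⁻¹ * h, hCs ω _ (right_ne_zero_of_mul hx0), ?_⟩
      show x * (x⁻¹ * h) = h
      rw [mul_inv_cancel_left]

/-- **LEAF PBQ.0.D1 `PBQ973.SwapDnTestQC973`**, UNCONDITIONAL. -/
theorem swapDnTestQC75 (F : Type) [Field F] [NumberField F] : PBQ973.SwapDnTestQC973 F := by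
  classical
  intro hsq hiq Φe B hB hram g hg 𝔫 h𝔫 μr μc hμr hμc T₀ n n₀ m hexp c hc c₁ Φ₁ F₁ hA fb hfb
    Ω iT iC iT2 iSC iM iB ν iF T T' φ₀ Φ f₀ F0 F1 hdat a t
  obtain ⟨X, cx, hprop, hid⟩ := swapDnSumQC75 F hsq hiq Φe B hB hram g hg 𝔫 h𝔫 μr μc hμr hμc
    T₀ n n₀ m hexp c hc c₁ Φ₁ F₁ hA fb hfb Ω iT iC iT2 iSC iM iB ν iF T T' φ₀ Φ f₀ F0 F1 hdat
  have hinv := H459.swapDnInvQC459 F hsq hiq Φe B hB hram g hg 𝔫 h𝔫 μr μc hμr hμc
    T₀ n n₀ m hexp c hc c₁ Φ₁ F₁ hA fb hfb Ω iT iC iT2 iSC iM iB ν iF T T' φ₀ Φ f₀ F0 F1 hdat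
    a t
  obtain ⟨-, -, -, -, -, hc0, hc1, -, -, -, -, hf0, hf1⟩ := hdat
  have hcont : Continuous (fun q : Ω × G ℚ =>
      pureQ298 (T q.1) (f₀ q.1) (archQ973 F0 F1 t q.1) q.2) := by
    simp only [one_mul] at hc0 hc1
    cases t
    · exact hc0
    · exact hc1
  have hF₁ : ∀ h : G ℚ, F₁ t [] h
      = ∫ ω, pureQ298 (T ω) (f₀ ω) (archQ973 F0 F1 t ω) h ∂ν := by
    intro h
    have h0 := hf0 h
    have h1 := hf1 h
    simp only [one_mul] at h0 h1
    cases t
    · exact h0
    · exact h1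
  refine isTestFn_wsum75 (hA.dn1_test t [] (by simp)) X (fun x hx => (hprop x hx).1)
    (fun x => a * cx x) (fun y => ?_) (fun u hu y => hinv.1 u hu y)
  have e1 : (fun ω => a * pureQ298 (T ω) (swDnQ973 (toBase962_732 B) T₀ fb (f₀ ω))
      (archQ973 F0 F1 t ω) y)
      = fun ω => a * ∑ x ∈ X, cx x
          * pureQ298 (T ω) (f₀ ω) (archQ973 F0 F1 t ω) (x⁻¹ * y) := by
    funext ω
    rw [hid t ω y]
  show ∫ ω, a * pureQ298 (T ω) (swDnQ973 (toBase962_732 B) T₀ fb (f₀ ω))
      (archQ973 F0 F1 t ω) y ∂ν = _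
  rw [e1, integral_wsum75 ν
    (p := fun ω => pureQ298 (T ω) (f₀ ω) (archQ973 F0 F1 t ω)) hcont a X cx y,
    Finset.mul_sum]
  refine Finset.sum_congr rfl fun x _ => ?_
  rw [hF₁]
  ring

end Fermat.Agent.LT.T7.H75.SQ

end
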