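import Mathlib
import Fermat.Agent.LT.T7.H305.MatchSpec

/-!
# Row LT, tower T7, leaf T7.L2.1.H2a.B.3 `PB57.NatShapeC57` (helper75, registry row 2794):
# archimedean tools

OFF-MAIN.  No hole, nothing assumed.  ADDITIVE (namespace `Fermat.Agent.LT.T7.H75.NS`).

Right translation `trC z Ψ = Ψ(· z⁻¹)` of a function on `GL₂(ℂ)` by a CENTRAL element `z`:
continuity, compact support, invariance under complex conjugation (`z` real), bi-invariance,
and THE CONVOLUTION: `convL305 μc (fun j => trC (z j) (Ψ j)) k = trC (∏_{j ≤ k} z j)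
(convL305 μc Ψ k)` for a left invariant measure `μc`.
-/

set_option autoImplicit false
set_option linter.style.haveILetI false

open MeasureTheory

noncomputable section

namespace Fermat.Agent.LT.T7.H75.NS

open Fermat.Agent.LT Fermat.Agent.LT.T7.H305

section Gen

variable {H : Type} [Group H]

/-- The right translate `Ψ(· z⁻¹)`. -/
def trC (z : H) (Ψ : H → ℂ) : H → ℂ := fun x => Ψ (x * z⁻¹)

theorem trC_apply (z : H) (Ψ : H → ℂ) (x : H) : trC z Ψ x = Ψ (x * z⁻¹) := rfl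

theorem trC_one (Ψ : H → ℂ) : trC 1 Ψ = Ψ := by
  funext x
  rw [trC_apply, inv_one, mul_one]

theorem continuous_trC [TopologicalSpace H] [IsTopologicalGroup H] (z : H) {Ψ : H → ℂ}
    (h : Continuous Ψ) : Continuous (trC z Ψ) :=
  h.comp (continuous_id.mul continuous_const)

theorem hasCompactSupport_trC [TopologicalSpace H] [IsTopologicalGroup H] (z : H) {Ψ : H → ℂ}
    (h : HasCompactSupport Ψ) : HasCompactSupport (trC z Ψ) :=
  h.comp_homeomorph (Homeomorph.mulRight z⁻¹)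

/-- The convolution of two translates by central elements. -/
theorem convInt_trC [MeasurableSpace H] [MeasurableMul H] (μ : Measure H)
    [μ.IsMulLeftInvariant] (z₁ z₂ : H) (hz₁ : ∀ x : H, z₁ * x = x * z₁)
    (φ ψ : H → ℂ) :
    T6.convInt μ (trC z₁ φ) (trC z₂ ψ) = trC (z₁ * z₂) (T6.convInt μ φ ψ) := by
  funext g
  show ∫ h, trC z₁ φ h * trC z₂ ψ (h⁻¹ * g) ∂μ = ∫ h, φ h * ψ (h⁻¹ * (g * (z₁ * z₂)⁻¹)) ∂μ
  rw [← integral_mul_left_eq_self (fun h => trC z₁ φ h * trC z₂ ψ (h⁻¹ * g)) z₁]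
  refine integral_congr_ae (Filter.Eventually.of_forall fun h => ?_)
  show φ (z₁ * h * z₁⁻¹) * ψ ((z₁ * h)⁻¹ * g * z₂⁻¹) = φ h * ψ (h⁻¹ * (g * (z₁ * z₂)⁻¹))
  have e1 : z₁ * h * z₁⁻¹ = h := by rw [hz₁ h, mul_inv_cancel_right]
  have hz₁' : ∀ x : H, z₁⁻¹ * x = x * z₁⁻¹ := by
    intro x
    have := hz₁ (z₁⁻¹ * x * z₁⁻¹)
    calc z₁⁻¹ * x = z₁⁻¹ * x * z₁⁻¹ * z₁ := by group
      _ = z₁ * (z₁⁻¹ * x * z₁⁻¹) := this.symm
      _ = x * z₁⁻¹ := by group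
  have e2 : (z₁ * h)⁻¹ * g * z₂⁻¹ = h⁻¹ * (g * (z₁ * z₂)⁻¹) := by
    calc (z₁ * h)⁻¹ * g * z₂⁻¹ = h⁻¹ * (z₁⁻¹ * g) * z₂⁻¹ := by group
      _ = h⁻¹ * (g * z₁⁻¹) * z₂⁻¹ := by rw [hz₁' g]
      _ = h⁻¹ * (g * (z₁⁻¹ * z₂⁻¹)) := by group
      _ = h⁻¹ * (g * (z₂⁻¹ * z₁⁻¹)) := by rw [hz₁' z₂⁻¹]
      _ = h⁻¹ * (g * (z₁ * z₂)⁻¹) := by rw [mul_inv_rev]
  rw [e1, e2]

end Gen

/-! ## `GL₂(ℂ)` -/

section GLC

/-- `convL305` by its recursion (definitional). -/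
theorem convL_zero75 (μc : @Measure (GL (Fin 2) ℂ) (borel _)) (Ψ : ℕ → GL (Fin 2) ℂ → ℂ) :
    convL305 μc Ψ 0 = Ψ 0 := rfl

theorem convL_succ75 (μc : @Measure (GL (Fin 2) ℂ) (borel _)) (Ψ : ℕ → GL (Fin 2) ℂ → ℂ)
    (j : ℕ) :
    convL305 μc Ψ (j + 1)
      = @T6.convInt _ _ (borel _) μc (convL305 μc Ψ j) (Ψ (j + 1)) := rfl

/-- **The iterated convolution of translates by central elements** (`P k` = the product of the
`z j`, `j ≤ k`). -/
theorem convL_trC75 (μc : @Measure (GL (Fin 2) ℂ) (borel _))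
    (hμ : @Measure.IsHaarMeasure _ _ _ (borel _) μc) (z P : ℕ → GL (Fin 2) ℂ)
    (hP0 : P 0 = z 0) (hPs : ∀ k : ℕ, P (k + 1) = P k * z (k + 1))
    (hP : ∀ (k : ℕ) (x : GL (Fin 2) ℂ), P k * x = x * P k)
    (Ψ : ℕ → GL (Fin 2) ℂ → ℂ) (k : ℕ) :
    convL305 μc (fun j => trC (z j) (Ψ j)) k = trC (P k) (convL305 μc Ψ k) := by
  letI : MeasurableSpace (GL (Fin 2) ℂ) := borel _
  haveI : BorelSpace (GL (Fin 2) ℂ) := ⟨rfl⟩
  haveI := hμ
  induction k with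
  | zero =>
    rw [convL_zero75, convL_zero75, hP0]
  | succ k ih =>
    rw [convL_succ75, convL_succ75, ih, hPs k]
    exact convInt_trC μc _ _ (hP k) _ _

/-- The scalar matrix `exp c` in `GL₂(ℂ)`. -/
def scal75 (c : ℝ) : GL (Fin 2) ℂ :=
  Units.mk (Matrix.diagonal fun _ => ((Real.exp c : ℝ) : ℂ))
    (Matrix.diagonal fun _ => ((Real.exp (-c) : ℝ) : ℂ))
    (by
      rw [Matrix.diagonal_mul_diagonal, ← Matrix.diagonal_one]
      congr 1
      funext i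
      rw [← Complex.ofReal_mul, ← Real.exp_add, add_neg_cancel, Real.exp_zero, Complex.ofReal_one])
    (by
      rw [Matrix.diagonal_mul_diagonal, ← Matrix.diagonal_one]
      congr 1
      funext i
      rw [← Complex.ofReal_mul, ← Real.exp_add, neg_add_cancel, Real.exp_zero, Complex.ofReal_one])

theorem coe_scal75 (c : ℝ) :
    ((scal75 c : GL (Fin 2) ℂ) : Matrix (Fin 2) (Fin 2) ℂ)
      = Matrix.diagonal fun _ => ((Real.exp c : ℝ) : ℂ) := rfl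

theorem scal_add75 (c d : ℝ) : scal75 (c + d) = scal75 c * scal75 d := by
  refine Units.ext ?_
  rw [Units.val_mul, coe_scal75, coe_scal75, coe_scal75, Matrix.diagonal_mul_diagonal]
  congr 1
  funext i
  rw [← Complex.ofReal_mul, ← Real.exp_add]

theorem scal_central75 (c : ℝ) (x : GL (Fin 2) ℂ) : scal75 c * x = x * scal75 c := by
  refine Units.ext ?_
  rw [Units.val_mul, Units.val_mul, coe_scal75]
  have h : (Matrix.diagonal fun _ : Fin 2 => ((Real.exp c : ℝ) : ℂ))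
      = Matrix.scalar (Fin 2) ((Real.exp c : ℝ) : ℂ) := rfl
  rw [h]
  exact (Matrix.scalar_commute _ (fun _ => Commute.all _ _) _).eq

theorem conj_scal75 (c : ℝ) : conjGL305 (scal75 c) = scal75 c := by
  refine Units.ext ?_
  ext i j
  show starRingEnd ℂ (((scal75 c : GL (Fin 2) ℂ) : Matrix (Fin 2) (Fin 2) ℂ) i j) = _
  rw [coe_scal75]
  by_cases h : i = j
  · rw [h, Matrix.diagonal_apply_eq, Complex.conj_ofReal]
  · rw [Matrix.diagonal_apply_ne _ h, map_zero]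

/-- The partial sums give the partial products. -/
theorem scal_sum75 (c : ℕ → ℝ) (k : ℕ) :
    scal75 (∑ j ∈ Finset.range (k + 1 + 1), c j)
      = scal75 (∑ j ∈ Finset.range (k + 1), c j) * scal75 (c (k + 1)) := by
  rw [Finset.sum_range_succ _ (k + 1), scal_add75]

/-- **The iterated convolution of translates by scalars.** -/
theorem convL_scal75 (μc : @Measure (GL (Fin 2) ℂ) (borel _))
    (hμ : @Measure.IsHaarMeasure _ _ _ (borel _) μc) (c : ℕ → ℝ)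
    (Ψ : ℕ → GL (Fin 2) ℂ → ℂ) (k : ℕ) :
    convL305 μc (fun j => trC (scal75 (c j)) (Ψ j)) k
      = trC (scal75 (∑ j ∈ Finset.range (k + 1), c j)) (convL305 μc Ψ k) :=
  convL_trC75 μc hμ (fun j => scal75 (c j)) (fun k => scal75 (∑ j ∈ Finset.range (k + 1), c j))
    (by rw [Finset.sum_range_one]) (scal_sum75 c) (fun k x => scal_central75 _ x) Ψ k

/-- Translates by scalars: the clauses of `LocHyp305.arch_up`. -/
theorem arch_trC75 (c : ℝ) {Ψ : GL (Fin 2) ℂ → ℂ}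
    (h : Continuous Ψ ∧ HasCompactSupport Ψ ∧ ∀ g : GL (Fin 2) ℂ, Ψ (conjGL305 g) = Ψ g) :
    Continuous (trC (scal75 c) Ψ) ∧ HasCompactSupport (trC (scal75 c) Ψ) ∧
      ∀ g : GL (Fin 2) ℂ, trC (scal75 c) Ψ (conjGL305 g) = trC (scal75 c) Ψ g := by
  refine ⟨continuous_trC _ h.1, hasCompactSupport_trC _ h.2.1, fun g => ?_⟩
  rw [trC_apply, trC_apply, ← h.2.2 (g * (scal75 c)⁻¹), map_mul, map_inv, conj_scal75]

/-- Translates by scalars: bi-invariance. -/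
theorem biInv_trC75 (c : ℝ) {Ψ : GL (Fin 2) ℂ → ℂ} {P : GL (Fin 2) ℂ → Prop}
    (h : ∀ k₁ k₂ g : GL (Fin 2) ℂ, P k₁ → P k₂ → Ψ (k₁ * g * k₂) = Ψ g)
    (k₁ k₂ g : GL (Fin 2) ℂ) (h₁ : P k₁) (h₂ : P k₂) :
    trC (scal75 c) Ψ (k₁ * g * k₂) = trC (scal75 c) Ψ g := by
  rw [trC_apply, trC_apply, ← h k₁ k₂ (g * (scal75 c)⁻¹) h₁ h₂]
  congr 1
  have hc : ∀ x : GL (Fin 2) ℂ, (scal75 c)⁻¹ * x = x * (scal75 c)⁻¹ := by
    intro x
    have := scal_central75 c ((scal75 c)⁻¹ * x * (scal75 c)⁻¹)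
    calc (scal75 c)⁻¹ * x = (scal75 c)⁻¹ * x * (scal75 c)⁻¹ * scal75 c := by group
      _ = scal75 c * ((scal75 c)⁻¹ * x * (scal75 c)⁻¹) := this.symm
      _ = x * (scal75 c)⁻¹ := by group
  rw [mul_assoc, mul_assoc, mul_assoc, mul_assoc, hc k₂]

end GLC

end Fermat.Agent.LT.T7.H75.NS

end
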