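import Mathlib
import Fermat.Agent.LT.T7.H57.PairBSpec
import Fermat.Agent.LT.T7.H75.NatShapeArch

/-!
# Row LT, tower T7, leaf T7.L2.1.H2a.B.3 `PB57.NatShapeC57` (helper75, registry row 2794):
# adelic tools

OFF-MAIN.  No hole, nothing assumed.  ADDITIVE (namespace `Fermat.Agent.LT.T7.H75.NS`).

* `pure_trl75`: the right translate of a pure tensor by an element `z` which is trivial at the
  finite places is the pure tensor with the archimedean components translated by the components
  of `z`;
* `isTestFn_trl75`: the right translate of a test function by a central element is a test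
  function;
* `infGL_torus75`: the components of the positive scalars `a t` of torus data are the scalar
  matrices `exp (t w)`.
-/

set_option autoImplicit false
set_option linter.style.haveILetI false

open AutomorphicForm IsDedekindDomain NumberField MeasureTheory
open scoped ComplexConjugate

noncomputable section

namespace Fermat.Agent.LT.T7.H75.NS

open Fermat.Agent.LT Fermat.Agent.LT.H556 Fermat.Agent.LT.H556.A0 Fermat.Agent.LT.T7
open Fermat.Agent.LT.T7.H305

attribute [local instance] Fermat.Agent.LT.T5.instMeasurableSpaceG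

variable {K : Type} [Field K] [NumberField K]

/-! ## 1. Translates of pure tensors -/

theorem coe_finGL75 (v : HeightOneSpectrum (𝓞 K)) (g : G K) :
    ((finGL305 v g : GL (Fin 2) (v.adicCompletion K)) :
      Matrix (Fin 2) (Fin 2) (v.adicCompletion K)) = finComp v g := rfl

theorem coe_infGL75 (w : InfinitePlace K) (g : G K) :
    ((infGL305 w g : GL (Fin 2) ℂ) : Matrix (Fin 2) (Fin 2) ℂ) = infComp w g := rfl

theorem finGL_eq_one75 {v : HeightOneSpectrum (𝓞 K)} {z : G K} (hz : TrivAtFin v z) :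
    finGL305 v z = 1 := by
  refine Units.ext ?_
  rw [coe_finGL75]
  exact hz

theorem finGL_mul_inv75 {z : G K} (hz : ∀ v : HeightOneSpectrum (𝓞 K), TrivAtFin v z)
    (v : HeightOneSpectrum (𝓞 K)) (h : G K) : finGL305 v (h * z⁻¹) = finGL305 v h := by
  rw [map_mul, map_inv, finGL_eq_one75 (hz v), inv_one, mul_one]

theorem isIntegralAt_iff75 (v : HeightOneSpectrum (𝓞 K)) (g : G K) :
    IsIntegralAt v g ↔ ∀ i j, ((finGL305 v g : GL (Fin 2) (v.adicCompletion K)) :
      Matrix (Fin 2) (Fin 2) (v.adicCompletion K)) i j ∈ v.adicCompletionIntegers K := Iff.rfl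

theorem outT_mul_inv75 {z : G K} (hz : ∀ v : HeightOneSpectrum (𝓞 K), TrivAtFin v z)
    (T : Finset (HeightOneSpectrum (𝓞 K))) (h : G K) : OutT305 T (h * z⁻¹) ↔ OutT305 T h := by
  have e1 : ∀ v : HeightOneSpectrum (𝓞 K), finGL305 v (h * z⁻¹) = finGL305 v h :=
    fun v => finGL_mul_inv75 hz v h
  have e2 : ∀ v : HeightOneSpectrum (𝓞 K), finGL305 v (h * z⁻¹)⁻¹ = finGL305 v h⁻¹ := by
    intro v
    rw [map_inv, e1 v, map_inv]
  unfold OutT305
  refine forall_congr' fun v => imp_congr_right fun _ => ?_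
  rw [isIntegralAt_iff75, isIntegralAt_iff75, isIntegralAt_iff75, isIntegralAt_iff75, e1 v, e2 v]

/-- **The translate of a pure tensor.** -/
theorem pure_trl75 {z : G K} (hz : ∀ v : HeightOneSpectrum (𝓞 K), TrivAtFin v z)
    (T : Finset (HeightOneSpectrum (𝓞 K)))
    (f₀ : ∀ v : HeightOneSpectrum (𝓞 K), GL (Fin 2) (v.adicCompletion K) → ℂ)
    (F : InfinitePlace K → GL (Fin 2) ℂ → ℂ) (h : G K) :
    pure305 T f₀ F (h * z⁻¹)
      = pure305 T f₀ (fun w => trC (infGL305 w z) (F w)) h := by
  classical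
  unfold pure305
  by_cases hO : OutT305 T h
  · rw [if_pos hO, if_pos ((outT_mul_inv75 hz T h).2 hO)]
    congr 1
    · exact Finset.prod_congr rfl fun v _ => by rw [finGL_mul_inv75 hz v h]
    · refine Finset.prod_congr rfl fun w _ => ?_
      show F w (infGL305 w (h * z⁻¹)) = trC (infGL305 w z) (F w) (infGL305 w h)
      rw [trC_apply, map_mul, map_inv]
  · rw [if_neg hO, if_neg fun h' => hO ((outT_mul_inv75 hz T h).1 h')]

/-! ## 2. Translates of test functions -/

theorem inv_central75 {z : G K} (hc : ∀ g : G K, z * g = g * z) (g : G K) :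
    z⁻¹ * g = g * z⁻¹ := by
  have := hc (z⁻¹ * g * z⁻¹)
  calc z⁻¹ * g = z⁻¹ * g * z⁻¹ * z := by group
    _ = z * (z⁻¹ * g * z⁻¹) := this.symm
    _ = g * z⁻¹ := by group

/-- **The right translate of a test function by a central element is a test function.** -/
theorem isTestFn_trl75 {𝔑 : Ideal (𝓞 K)} {τ : G K → ℂ} {φ : G K → ℂ}
    (hφ : T5.IsTestFn 𝔑 τ φ) {z : G K} (hc : ∀ g : G K, z * g = g * z) :
    T5.IsTestFn 𝔑 τ (fun g => φ (g * z⁻¹)) := by
  have hc' := inv_central75 hc
  have key : ∀ g x : G K, g * x * z⁻¹ = g * z⁻¹ * x := by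
    intro g x
    rw [mul_assoc, ← hc' x, ← mul_assoc]
  refine ⟨hφ.ktype, hφ.cont.comp (continuous_id.mul continuous_const),
    hφ.supp.comp_homeomorph (Homeomorph.mulRight z⁻¹), ?_, ?_⟩
  · intro n h hfin hsm g
    have e : (fun t => φ (g * h t * z⁻¹)) = fun t => φ (g * z⁻¹ * h t) := by
      funext t
      rw [key]
    rw [e]
    exact hφ.smooth n h hfin hsm (g * z⁻¹)
  · refine ⟨fun u hu g => ?_, fun u hu g => ?_, fun w k hk g => ?_, fun w k hk g => ?_⟩
    · show φ (g * u * z⁻¹) = φ (g * z⁻¹)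
      rw [key]
      exact hφ.inv.level_right u hu _
    · show φ (u * g * z⁻¹) = φ (g * z⁻¹)
      rw [mul_assoc]
      exact hφ.inv.level_left u hu _
    · show φ (g * k * z⁻¹) = (τ k)⁻¹ * φ (g * z⁻¹)
      rw [key]
      exact hφ.inv.arch_right w k hk _
    · show φ (k * g * z⁻¹) = (τ k)⁻¹ * φ (g * z⁻¹)
      rw [mul_assoc]
      exact hφ.inv.arch_left w k hk _

/-! ## 3. Torus data -/

theorem infGL_torus75 {𝔑 : Ideal (𝓞 K)} {r : G K} {a : (InfinitePlace K → ℝ) → G K}
    {D : Set (InfinitePlace K → ℝ)} (hD : H193.IsTorusData 𝔑 r a D)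
    (t : InfinitePlace K → ℝ) (w : InfinitePlace K) : infGL305 w (a t) = scal75 (t w) := by
  refine Units.ext ?_
  rw [coe_infGL75, coe_scal75]
  exact hD.inf t w

end Fermat.Agent.LT.T7.H75.NS

end
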