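import Mathlib
import Fermat.Agent.LT.T7.H57.PairBSpec
import Fermat.Agent.LT.T7.H75.NatShapeArch
import Fermat.Agent.LT.T7.H75.NatShapeAd

/-!
# Row LT, tower T7, leaf T7.L2.1.H2a.B.3 `PB57.NatShapeC57` (helper75, registry row 2794):
# the torus means of an average of pure tensors

OFF-MAIN.  No hole, nothing assumed.  ADDITIVE (namespace `Fermat.Agent.LT.T7.H75.NS`).

`isAvgPure_nat75`: if the local condition `L` is stable under the translations of the
archimedean components by the scalars `exp (y w)` upstairs and `exp ((N y) v)` downstairs, the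
torus means (compatible torus data) of an average of pure tensors with the local condition `L`
are an average of pure tensors with the local condition `L`.  Parameter space
`Ω × closure D'` with the product of `ν` and the normalised Lebesgue measure of `D'`.
-/

set_option autoImplicit false
set_option linter.style.haveILetI false
set_option linter.unusedSectionVars false

open AutomorphicForm IsDedekindDomain NumberField MeasureTheory
open scoped ComplexConjugate

noncomputable section

namespace Fermat.Agent.LT.T7.H75.NS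

open Fermat.Agent.LT Fermat.Agent.LT.H556 Fermat.Agent.LT.H556.A0 Fermat.Agent.LT.T7
open Fermat.Agent.LT.T7.H893 Fermat.Agent.LT.T7.H305

attribute [local instance] Fermat.Agent.LT.T5.instMeasurableSpaceG

/-! ## 1. The normalised Lebesgue measure of `D` on the compact space `closure D` -/

section Par

variable {ι : Type} [Fintype ι]

/-- The normalised Lebesgue measure of `D`, on `closure D`. -/
def parMeas75 (D : Set (ι → ℝ)) : Measure (closure D) :=
  ENNReal.ofReal ((volume D).toReal)⁻¹ •
    Measure.comap (Subtype.val : closure D → ι → ℝ) (volume.restrict D)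

theorem compactSpace_closure75 {D : Set (ι → ℝ)} (hD : Bornology.IsBounded D) :
    CompactSpace (closure D) :=
  isCompact_iff_compactSpace.mp (Metric.isCompact_of_isClosed_isBounded isClosed_closure hD.closure)

theorem isFiniteMeasure_parMeas75 {D : Set (ι → ℝ)} (hD : Bornology.IsBounded D) :
    IsFiniteMeasure (parMeas75 D) := by
  have h1 : IsFiniteMeasure (Measure.comap (Subtype.val : closure D → ι → ℝ)
      (volume.restrict D)) := by
    refine ⟨?_⟩
    rw [(MeasurableEmbedding.subtype_coe isClosed_closure.measurableSet).comap_apply]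
    refine lt_of_le_of_lt (measure_mono (Set.subset_univ _)) ?_
    rw [Measure.restrict_apply_univ]
    exact (hD.measure_lt_top : (volume : Measure (ι → ℝ)) D < ⊤)
  unfold parMeas75
  exact Measure.smul_finite _ ENNReal.ofReal_ne_top

/-- The integral for the normalised Lebesgue measure. -/
theorem integral_parMeas75 (D : Set (ι → ℝ)) (g : (ι → ℝ) → ℂ) :
    ∫ y : closure D, g (y : ι → ℝ) ∂(parMeas75 D)
      = (((volume D).toReal : ℝ) : ℂ)⁻¹ * ∫ t in D, g t := by
  unfold parMeas75
  rw [integral_smul_measure, integral_subtype_comap isClosed_closure.measurableSet g,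
    Measure.restrict_restrict isClosed_closure.measurableSet,
    Set.inter_eq_self_of_subset_right subset_closure,
    ENNReal.toReal_ofReal (inv_nonneg.2 ENNReal.toReal_nonneg), Complex.real_smul,
    Complex.ofReal_inv]

end Par

/-! ## 2. The torus means of an average of pure tensors -/

section Avg

variable {K K' : Type} [Field K] [NumberField K] [Field K'] [NumberField K'] [Algebra K K']

theorem continuous_fibSum75 :
    Continuous (fun y : InfinitePlace K' → ℝ => H193.fibSum193 (K := K) y) := by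
  classical
  refine continuous_pi fun v => ?_
  show Continuous fun y : InfinitePlace K' → ℝ =>
    ∑ w : InfinitePlace K', if w.comap (algebraMap K K') = v then y w else 0
  refine continuous_finsetSum _ fun w _ => ?_
  by_cases h : w.comap (algebraMap K K') = v
  · simp only [h, if_true]
    exact continuous_apply w
  · simp only [h, if_false]
    exact continuous_const

/-- The translate of a pure tensor by the positive scalars of torus data. -/
theorem pure_torus75 {𝔑 : Ideal (𝓞 K)} {r : G K} {a : (InfinitePlace K → ℝ) → G K}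
    {D : Set (InfinitePlace K → ℝ)} (hD : H193.IsTorusData 𝔑 r a D)
    (t : InfinitePlace K → ℝ) (T : Finset (HeightOneSpectrum (𝓞 K)))
    (f₀ : ∀ v : HeightOneSpectrum (𝓞 K), GL (Fin 2) (v.adicCompletion K) → ℂ)
    (F : InfinitePlace K → GL (Fin 2) ℂ → ℂ) (h : G K) :
    pure305 T f₀ (fun w => trC (scal75 (t w)) (F w)) h = pure305 T f₀ F (h * (a t)⁻¹) := by
  rw [pure_trl75 (hD.fin t) T f₀ F h]
  congr 1
  funext w
  rw [infGL_torus75 hD t w]

/-- The integral of a continuous function on `Ω × closure D'`. -/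
theorem integral_prod_par75 {Ω : Type} [TopologicalSpace Ω] [CompactSpace Ω]
    [SecondCountableTopology Ω] [MeasurableSpace Ω] [BorelSpace Ω] (ν : Measure Ω)
    [IsFiniteMeasure ν] {ι : Type} [Fintype ι] {D : Set (ι → ℝ)} (hD : Bornology.IsBounded D)
    (g : Ω × (ι → ℝ) → ℂ) (hg : Continuous g) :
    haveI := isFiniteMeasure_parMeas75 hD
    ∫ p : Ω × closure D, g (p.1, (p.2 : ι → ℝ)) ∂(ν.prod (parMeas75 D))
      = (((volume D).toReal : ℝ) : ℂ)⁻¹ * ∫ t in D, ∫ ω, g (ω, t) ∂ν := by
  haveI := isFiniteMeasure_parMeas75 hD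
  haveI := compactSpace_closure75 hD
  have hc : Continuous fun p : Ω × closure D => g (p.1, (p.2 : ι → ℝ)) :=
    hg.comp (continuous_fst.prodMk (continuous_subtype_val.comp continuous_snd))
  have hint : Integrable (fun p : Ω × closure D => g (p.1, (p.2 : ι → ℝ)))
      (ν.prod (parMeas75 D)) :=
    hc.integrable_of_hasCompactSupport (HasCompactSupport.of_compactSpace _)
  rw [integral_prod_symm _ hint]
  exact integral_parMeas75 D fun t => ∫ ω, g (ω, t) ∂ν

/-- **THE TORUS MEANS OF AN AVERAGE OF PURE TENSORS.** -/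
theorem isAvgPure_nat75 {𝔫 : Ideal (𝓞 K)} {r : G K} {r' : G K'}
    {aT : (InfinitePlace K → ℝ) → G K} {D : Set (InfinitePlace K → ℝ)}
    {aT' : (InfinitePlace K' → ℝ) → G K'} {D' : Set (InfinitePlace K' → ℝ)}
    (hrel : H193.IsRelTorus 𝔫 r r' aT D aT' D')
    {T₀ : Finset (HeightOneSpectrum (𝓞 K))} {L : LocCond K K'}
    (hL : ∀ (T : Finset (HeightOneSpectrum (𝓞 K)))
        (φ₀ : ∀ w : HeightOneSpectrum (𝓞 K'), GL (Fin 2) (w.adicCompletion K') → ℂ)
        (Φ : InfinitePlace K' → GL (Fin 2) ℂ → ℂ)
        (f₀ : ∀ v : HeightOneSpectrum (𝓞 K), GL (Fin 2) (v.adicCompletion K) → ℂ)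
        (F : InfinitePlace K → GL (Fin 2) ℂ → ℂ) (y : InfinitePlace K' → ℝ),
        L T φ₀ Φ f₀ F →
        L T φ₀ (fun w => trC (scal75 (y w)) (Φ w)) f₀
          (fun v => trC (scal75 (H193.fibSum193 (K := K) y v)) (F v)))
    {a : ℂ} {φ : G K' → ℂ} {f : G K → ℂ} (hf : Continuous f)
    (h : IsAvgPure (upI (K' := K') 𝔫) 𝔫 T₀ L a φ f) :
    IsAvgPure (upI (K' := K') 𝔫) 𝔫 T₀ L a (H193.nat193 aT' D' φ) (H193.nat193 aT D f) := by
  obtain ⟨Ω, iT, iC, iT2, iSC, iM, iB, ν, iF, T, T', φ₀, Φ, f₀, F, h1, h2, h3, h4, h5,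
    ⟨C₁, hC₁, hs₁⟩, ⟨C₂, hC₂, hs₂⟩, h8, h9⟩ := h
  have hup : H193.IsTorusData (upI (K' := K') 𝔫) r' aT' D' := hrel.up
  have hdn : H193.IsTorusData 𝔫 r aT D := hrel.down
  haveI := isFiniteMeasure_parMeas75 hup.bdd
  haveI := compactSpace_closure75 hup.bdd
  -- the pointwise identities
  have eup : ∀ (ω : Ω) (y : InfinitePlace K' → ℝ) (x : G K'),
      pure305 (T' ω) (φ₀ ω) (fun w => trC (scal75 (y w)) (Φ ω w)) x
        = pure305 (T' ω) (φ₀ ω) (Φ ω) (x * (aT' y)⁻¹) :=
    fun ω y x => pure_torus75 hup y (T' ω) (φ₀ ω) (Φ ω) x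
  have edn : ∀ (ω : Ω) (y : InfinitePlace K' → ℝ) (x : G K),
      pure305 (T ω) (f₀ ω)
          (fun v => trC (scal75 (H193.fibSum193 (K := K) y v)) (F ω v)) x
        = pure305 (T ω) (f₀ ω) (F ω) (x * (aT (H193.fibSum193 (K := K) y))⁻¹) :=
    fun ω y x => pure_torus75 hdn (H193.fibSum193 (K := K) y) (T ω) (f₀ ω) (F ω) x
  refine ⟨Ω × closure D', inferInstance, inferInstance, inferInstance, inferInstance,
    inferInstance, inferInstance, ν.prod (parMeas75 D'), inferInstance,
    fun p => T p.1, fun p => T' p.1, fun p => φ₀ p.1,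
    fun p w => trC (scal75 ((p.2 : InfinitePlace K' → ℝ) w)) (Φ p.1 w),
    fun p => f₀ p.1,
    fun p v => trC (scal75 (H193.fibSum193 (K := K) (p.2 : InfinitePlace K' → ℝ) v)) (F p.1 v),
    ?_, ?_, ?_, ?_, ?_, ?_, ?_, ?_, ?_⟩
  · -- the local condition
    intro p
    exact ⟨(h1 p.1).1, (h1 p.1).2.1, hL _ _ _ _ _ _ (h1 p.1).2.2⟩
  · -- test functions upstairs
    intro p
    have e : pure305 (T' p.1) (φ₀ p.1)
        (fun w => trC (scal75 ((p.2 : InfinitePlace K' → ℝ) w)) (Φ p.1 w))
        = fun x => pure305 (T' p.1) (φ₀ p.1) (Φ p.1) (x * (aT' (p.2 : InfinitePlace K' → ℝ))⁻¹) :=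
      funext fun x => eup p.1 _ x
    rw [e]
    exact isTestFn_trl75 (h2 p.1) (hup.central _)
  · -- test functions downstairs
    intro p
    have e : (fun x => a * pure305 (T p.1) (f₀ p.1)
        (fun v => trC (scal75 (H193.fibSum193 (K := K) (p.2 : InfinitePlace K' → ℝ) v))
          (F p.1 v)) x)
        = fun x => (fun x' => a * pure305 (T p.1) (f₀ p.1) (F p.1) x')
            (x * (aT (H193.fibSum193 (K := K) (p.2 : InfinitePlace K' → ℝ)))⁻¹) :=
      funext fun x => by rw [edn p.1 _ x]
    rw [e]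
    exact isTestFn_trl75 (h3 p.1) (hdn.central _)
  · -- joint continuity upstairs
    have e : (fun q : (Ω × closure D') × G K' => pure305 (T' q.1.1) (φ₀ q.1.1)
        (fun w => trC (scal75 ((q.1.2 : InfinitePlace K' → ℝ) w)) (Φ q.1.1 w)) q.2)
        = (fun q : Ω × G K' => pure305 (T' q.1) (φ₀ q.1) (Φ q.1) q.2) ∘
          fun q : (Ω × closure D') × G K' =>
            (q.1.1, q.2 * (aT' (q.1.2 : InfinitePlace K' → ℝ))⁻¹) :=
      funext fun q => eup q.1.1 _ q.2
    rw [e]
    refine h4.comp ((continuous_fst.comp continuous_fst).prodMk (continuous_snd.mul ?_))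
    exact (hup.cont.comp (continuous_subtype_val.comp (continuous_snd.comp continuous_fst))).inv
  · -- joint continuity downstairs
    have e : (fun q : (Ω × closure D') × G K => a * pure305 (T q.1.1) (f₀ q.1.1)
        (fun v => trC (scal75 (H193.fibSum193 (K := K) (q.1.2 : InfinitePlace K' → ℝ) v))
          (F q.1.1 v)) q.2)
        = (fun q : Ω × G K => a * pure305 (T q.1) (f₀ q.1) (F q.1) q.2) ∘
          fun q : (Ω × closure D') × G K =>
            (q.1.1, q.2 * (aT (H193.fibSum193 (K := K) (q.1.2 : InfinitePlace K' → ℝ)))⁻¹) :=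
      funext fun q => by
        show a * _ = a * _
        rw [edn q.1.1 _ q.2]
    rw [e]
    refine h5.comp ((continuous_fst.comp continuous_fst).prodMk (continuous_snd.mul ?_))
    exact (hdn.cont.comp (continuous_fibSum75.comp
      (continuous_subtype_val.comp (continuous_snd.comp continuous_fst)))).inv
  · -- the support upstairs
    refine ⟨(fun q : G K' × closure D' => q.1 * aT' (q.2 : InfinitePlace K' → ℝ)) ''
      (C₁ ×ˢ Set.univ), ?_, ?_⟩
    · refine (hC₁.prod isCompact_univ).image ?_
      exact continuous_fst.mul (hup.cont.comp (continuous_subtype_val.comp continuous_snd))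
    · intro p x hx
      rw [eup p.1 _ x] at hx
      refine ⟨(x * (aT' (p.2 : InfinitePlace K' → ℝ))⁻¹, p.2), ⟨hs₁ p.1 _ hx, Set.mem_univ _⟩, ?_⟩
      show x * (aT' (p.2 : InfinitePlace K' → ℝ))⁻¹ * aT' (p.2 : InfinitePlace K' → ℝ) = x
      rw [inv_mul_cancel_right]
  · -- the support downstairs
    refine ⟨(fun q : G K × closure D' =>
      q.1 * aT (H193.fibSum193 (K := K) (q.2 : InfinitePlace K' → ℝ))) '' (C₂ ×ˢ Set.univ), ?_, ?_⟩
    · refine (hC₂.prod isCompact_univ).image ?_
      exact continuous_fst.mul (hdn.cont.comp (continuous_fibSum75.comp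
        (continuous_subtype_val.comp continuous_snd)))
    · intro p x hx
      rw [edn p.1 _ x] at hx
      refine ⟨(x * (aT (H193.fibSum193 (K := K) (p.2 : InfinitePlace K' → ℝ)))⁻¹, p.2),
        ⟨hs₂ p.1 _ hx, Set.mem_univ _⟩, ?_⟩
      show x * (aT (H193.fibSum193 (K := K) (p.2 : InfinitePlace K' → ℝ)))⁻¹ *
        aT (H193.fibSum193 (K := K) (p.2 : InfinitePlace K' → ℝ)) = x
      rw [inv_mul_cancel_right]
  · -- the integral upstairs
    intro x
    have hg : Continuous fun q : Ω × (InfinitePlace K' → ℝ) =>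
        pure305 (T' q.1) (φ₀ q.1) (Φ q.1) (x * (aT' q.2)⁻¹) :=
      h4.comp (continuous_fst.prodMk
        (continuous_const.mul (hup.cont.comp continuous_snd).inv))
    have e := integral_prod_par75 ν hup.bdd _ hg
    have e' : (fun p : Ω × closure D' => pure305 (T' p.1) (φ₀ p.1)
        (fun w => trC (scal75 ((p.2 : InfinitePlace K' → ℝ) w)) (Φ p.1 w)) x)
        = fun p : Ω × closure D' =>
          pure305 (T' p.1) (φ₀ p.1) (Φ p.1) (x * (aT' (p.2 : InfinitePlace K' → ℝ))⁻¹) :=
      funext fun p => eup p.1 _ x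
    rw [e', e]
    show (((volume D').toReal : ℝ) : ℂ)⁻¹ * ∫ t in D', φ (x * (aT' t)⁻¹) = _
    congr 1
    refine integral_congr_ae (Filter.Eventually.of_forall fun t => ?_)
    exact h8 _
  · -- the integral downstairs
    intro x
    have hg : Continuous fun q : Ω × (InfinitePlace K' → ℝ) =>
        a * pure305 (T q.1) (f₀ q.1) (F q.1) (x * (aT (H193.fibSum193 (K := K) q.2))⁻¹) :=
      h5.comp (continuous_fst.prodMk
        (continuous_const.mul (hdn.cont.comp (continuous_fibSum75.comp continuous_snd)).inv))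
    have e := integral_prod_par75 ν hup.bdd _ hg
    have e' : (fun p : Ω × closure D' => a * pure305 (T p.1) (f₀ p.1)
        (fun v => trC (scal75 (H193.fibSum193 (K := K) (p.2 : InfinitePlace K' → ℝ) v))
          (F p.1 v)) x)
        = fun p : Ω × closure D' =>
          a * pure305 (T p.1) (f₀ p.1) (F p.1)
            (x * (aT (H193.fibSum193 (K := K) (p.2 : InfinitePlace K' → ℝ)))⁻¹) :=
      funext fun p => by rw [edn p.1 _ x]
    rw [e', e, H193.nat_eq_push193 hrel hf x]
    congr 1
    refine integral_congr_ae (Filter.Eventually.of_forall fun t => ?_)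
    exact h9 _

end Avg

end Fermat.Agent.LT.T7.H75.NS

end
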