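import Mathlib
import Fermat.Agent.LT.T7.H57.PairBSpec
import Fermat.Agent.LT.T7.H952.FibCard
import Fermat.Agent.LT.T7.H75.NatShapeAvg

/-!
# Row LT, tower T7, leaf T7.L2.1.H2a.B.3 `PB57.NatShapeC57` (helper75, registry row 2794)

OFF-MAIN.  No hole, nothing assumed.  ADDITIVE (namespace `Fermat.Agent.LT.T7.H75.NS`).

    natShapeC75  (K K') : PB57.NatShapeC57 K K' H893.LocB893b      (shape of record, v2)
    natShapeC75a (K K') : PB57.NatShapeC57 K K' H893.LocB893       (v1)

VERBATIM vs `LT/T7/H57/PairBSpec.lean` (helper57@6af65419a, sha256 40309edd), UNCONDITIONAL.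

Proof.  `isAvgPure_nat75` (`NatShapeAvg.lean`): parameter space `Ω × closure D'` with the
product of `ν` and the normalised Lebesgue measure of `D'`; the member at `(ω, y)` is the pure
tensor of `ω` with the archimedean components translated by `exp (y w)` upstairs and by
`exp ((N y) v)` downstairs (`pure_trl75`: the right translate of a pure tensor by `a' y`, resp.
`a (N y)`); Fubini (continuous functions on a compact space), `H193.nat_eq_push193` downstairs.
The local condition is stable under these translations: the finite clauses do not change; the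
scalars are real (complex conjugation) and central (bi-invariance); the convolution of the
translates by the scalars `exp (y (w j))` is the translate of the convolution by the product
`exp (∑_j y (w j)) = exp ((N y) v)` (`convL_scal75`; the fibre over `v` has `ℓ` elements:
`H193.FibCardC`, closed by helper952 `fibCardC952`, byte-identical copy).
-/

set_option autoImplicit false
set_option linter.style.haveILetI false
set_option linter.unusedSectionVars false

open AutomorphicForm IsDedekindDomain NumberField MeasureTheory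
open scoped ComplexConjugate

noncomputable section

namespace Fermat.Agent.LT.T7.H75.NS

open Fermat.Agent.LT Fermat.Agent.LT.H556 Fermat.Agent.LT.H556.A0 Fermat.Agent.LT.T7
open Fermat.Agent.LT.T7.H893 Fermat.Agent.LT.T7.H305 Fermat.Agent.LT.T7.Q797

attribute [local instance] Fermat.Agent.LT.T5.instMeasurableSpaceG

variable {K K' : Type} [Field K] [NumberField K] [Field K'] [NumberField K'] [Algebra K K']

/-- The sum over the fibre is the sum over an enumeration of the fibre. -/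
theorem fibSum_eq75 {ℓ : ℕ} (hcyc : IsCycExt K K' ℓ) (htc : TotCplx K)
    (y : InfinitePlace K' → ℝ) (v : InfinitePlace K) (w : ℕ → InfinitePlace K')
    (hw : ∀ j : ℕ, (w j).comap (algebraMap K K') = v)
    (hinj : ∀ j j' : ℕ, j < ℓ → j' < ℓ → w j = w j' → j = j') :
    H193.fibSum193 (K := K) y v = ∑ j ∈ Finset.range ℓ, y (w j) := by
  classical
  have hcard := H952.fibCardC952 K K' ℓ hcyc htc v
  have hinjOn : Set.InjOn w (Finset.range ℓ : Set ℕ) := fun j hj j' hj' h =>
    hinj j j' (Finset.mem_range.1 hj) (Finset.mem_range.1 hj') h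
  show ∑ w' : InfinitePlace K', (if w'.comap (algebraMap K K') = v then y w' else 0) = _
  rw [← Finset.sum_filter]
  have himg : (Finset.range ℓ).image w
      = Finset.univ.filter fun w' : InfinitePlace K' => w'.comap (algebraMap K K') = v := by
    refine Finset.eq_of_subset_of_card_le ?_ ?_
    · intro w' hw'
      obtain ⟨j, -, rfl⟩ := Finset.mem_image.1 hw'
      exact Finset.mem_filter.2 ⟨Finset.mem_univ _, hw j⟩
    · rw [Finset.card_image_of_injOn hinjOn, Finset.card_range, ← hcard,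
        Nat.card_eq_fintype_card, Fintype.card_subtype]
  rw [← himg, Finset.sum_image hinjOn]

section Stab

variable {ℓ : ℕ} (hcyc : IsCycExt K K' ℓ) (htc : TotCplx K) {D : CompData K K'}
  (hDl : D.l = ℓ) {μc : @Measure (GL (Fin 2) ℂ) (borel _)}
  (hμ : @Measure.IsHaarMeasure _ _ _ (borel _) μc)

include hcyc htc hDl hμ

/-- The clause `arch` for the translates. -/
theorem arch_trl75 {Φ : InfinitePlace K' → GL (Fin 2) ℂ → ℂ}
    {F : InfinitePlace K → GL (Fin 2) ℂ → ℂ} (y : InfinitePlace K' → ℝ)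
    (h : ∀ (v : InfinitePlace K) (w : ℕ → InfinitePlace K'),
      (∀ j : ℕ, (w j).comap (algebraMap K K') = v) →
      (∀ j j' : ℕ, j < D.l → j' < D.l → w j = w j' → j = j') →
      F v = convL305 μc (fun j => Φ (w j)) (D.l - 1))
    (v : InfinitePlace K) (w : ℕ → InfinitePlace K')
    (hw : ∀ j : ℕ, (w j).comap (algebraMap K K') = v)
    (hinj : ∀ j j' : ℕ, j < D.l → j' < D.l → w j = w j' → j = j') :
    (fun v => trC (scal75 (H193.fibSum193 (K := K) y v)) (F v)) v
      = convL305 μc (fun j => (fun w => trC (scal75 (y w)) (Φ w)) (w j)) (D.l - 1) := by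
  subst hDl
  have hl : D.l - 1 + 1 = D.l := Nat.sub_add_cancel hcyc.prime.pos
  show trC (scal75 (H193.fibSum193 (K := K) y v)) (F v)
    = convL305 μc (fun j => trC (scal75 (y (w j))) (Φ (w j))) (D.l - 1)
  rw [convL_scal75 μc hμ (fun j => y (w j)) (fun j => Φ (w j)) (D.l - 1), hl,
    ← h v w hw hinj, fibSum_eq75 hcyc htc y v w hw hinj]

/-- `LocHyp893` is stable under the translations. -/
theorem locHyp893_trl75 {T : Finset (HeightOneSpectrum (𝓞 K))}
    {n : HeightOneSpectrum (𝓞 K') → ℕ} {m : HeightOneSpectrum (𝓞 K) → ℕ}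
    {φ₀ : ∀ w : HeightOneSpectrum (𝓞 K'), GL (Fin 2) (w.adicCompletion K') → ℂ}
    {Φ : InfinitePlace K' → GL (Fin 2) ℂ → ℂ}
    {f₀ : ∀ v : HeightOneSpectrum (𝓞 K), GL (Fin 2) (v.adicCompletion K) → ℂ}
    {F : InfinitePlace K → GL (Fin 2) ℂ → ℂ} (y : InfinitePlace K' → ℝ)
    (h : LocHyp893 D μc T n m φ₀ Φ f₀ F) :
    LocHyp893 D μc T n m φ₀ (fun w => trC (scal75 (y w)) (Φ w)) f₀
      (fun v => trC (scal75 (H193.fibSum193 (K := K) y v)) (F v)) where
  inv_up := h.inv_up
  inv_down := h.inv_down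
  arch_up := fun w => arch_trC75 _ (h.arch_up w)
  arch_down := fun v => arch_trC75 _ (h.arch_down v)
  inert := h.inert
  split := h.split
  arch := arch_trl75 hcyc htc hDl hμ y h.arch

/-- `LocHyp305` is stable under the translations. -/
theorem locHyp305_trl75 {T : Finset (HeightOneSpectrum (𝓞 K))}
    {n : HeightOneSpectrum (𝓞 K') → ℕ} {m : HeightOneSpectrum (𝓞 K) → ℕ}
    {φ₀ : ∀ w : HeightOneSpectrum (𝓞 K'), GL (Fin 2) (w.adicCompletion K') → ℂ}
    {Φ : InfinitePlace K' → GL (Fin 2) ℂ → ℂ}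
    {f₀ : ∀ v : HeightOneSpectrum (𝓞 K), GL (Fin 2) (v.adicCompletion K) → ℂ}
    {F : InfinitePlace K → GL (Fin 2) ℂ → ℂ} (y : InfinitePlace K' → ℝ)
    (h : LocHyp305 D μc T n m φ₀ Φ f₀ F) :
    LocHyp305 D μc T n m φ₀ (fun w => trC (scal75 (y w)) (Φ w)) f₀
      (fun v => trC (scal75 (H193.fibSum193 (K := K) y v)) (F v)) where
  inv_up := h.inv_up
  inv_down := h.inv_down
  arch_up := fun w => arch_trC75 _ (h.arch_up w)
  arch_down := fun v => arch_trC75 _ (h.arch_down v)
  inert := h.inert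
  split := h.split
  arch := arch_trl75 hcyc htc hDl hμ y h.arch

/-- `ArchOk893` is stable under the translations. -/
theorem archOk_trl75 {n : HeightOneSpectrum (𝓞 K') → ℕ} {m : HeightOneSpectrum (𝓞 K) → ℕ}
    {φ₀ : ∀ w : HeightOneSpectrum (𝓞 K'), GL (Fin 2) (w.adicCompletion K') → ℂ}
    {Φ : InfinitePlace K' → GL (Fin 2) ℂ → ℂ}
    {f₀ : ∀ v : HeightOneSpectrum (𝓞 K), GL (Fin 2) (v.adicCompletion K) → ℂ}
    {F : InfinitePlace K → GL (Fin 2) ℂ → ℂ} (y : InfinitePlace K' → ℝ)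
    (h : ArchOk893 D μc n m φ₀ Φ f₀ F) :
    ArchOk893 D μc n m φ₀ (fun w => trC (scal75 (y w)) (Φ w)) f₀
      (fun v => trC (scal75 (H193.fibSum193 (K := K) y v)) (F v)) := by
  obtain ⟨h1, h2, h3⟩ := h
  refine ⟨locHyp305_trl75 hcyc htc hDl hμ y h1, fun w k₁ k₂ g hk₁ hk₂ => ?_,
    fun v k₁ k₂ g hk₁ hk₂ => ?_⟩
  · exact biInv_trC75 (y w)
      (P := fun k : GL (Fin 2) ℂ =>
        (k : Matrix (Fin 2) (Fin 2) ℂ) * (k : Matrix (Fin 2) (Fin 2) ℂ).conjTranspose = 1)
      (fun k₁ k₂ g hk₁ hk₂ => h2 w k₁ k₂ g hk₁ hk₂) k₁ k₂ g hk₁ hk₂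
  · exact biInv_trC75 (H193.fibSum193 (K := K) y v)
      (P := fun k : GL (Fin 2) ℂ =>
        (k : Matrix (Fin 2) (Fin 2) ℂ) * (k : Matrix (Fin 2) (Fin 2) ℂ).conjTranspose = 1)
      (fun k₁ k₂ g hk₁ hk₂ => h3 v k₁ k₂ g hk₁ hk₂) k₁ k₂ g hk₁ hk₂

end Stab

/-- **LEAF PB.3 `PB57.NatShapeC57` for the shape of record `H893.LocB893b` (v2).** -/
theorem natShapeC75 (K K' : Type) [Field K] [NumberField K] [Field K'] [NumberField K']
    [Algebra K K'] : PB57.NatShapeC57 K K' H893.LocB893b := by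
  intro ℓ Φ B hcyc htc hbase g 𝔫 _ μc hμ T₀ n n₀ m _ a c₂ φ₀ f₀ hpre aT D aT' D' hrel
  refine isAvgPure_nat75 hrel ?_ hpre.dn_test.cont hpre.shape
  rintro T φ₀ Φ f₀ F y ⟨hA, hB, hC, hD, hE, hF⟩
  exact ⟨locHyp893_trl75 hcyc htc hbase.deg hμ y hA, hB, hC, hD, hE,
    archOk_trl75 hcyc htc hbase.deg hμ y hF⟩

/-- **LEAF PB.3 `PB57.NatShapeC57` for the shape `H893.LocB893` (v1).** -/
theorem natShapeC75a (K K' : Type) [Field K] [NumberField K] [Field K'] [NumberField K']
    [Algebra K K'] : PB57.NatShapeC57 K K' H893.LocB893 := by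
  intro ℓ Φ B hcyc htc hbase g 𝔫 _ μc hμ T₀ n n₀ m _ a c₂ φ₀ f₀ hpre aT D aT' D' hrel
  refine isAvgPure_nat75 hrel ?_ hpre.dn_test.cont hpre.shape
  rintro T φ₀ Φ f₀ F y ⟨hA, hB, hC, hD, hE, hF⟩
  exact ⟨locHyp305_trl75 hcyc htc hbase.deg hμ y hA, hB, hC, hD, hE,
    archOk_trl75 hcyc htc hbase.deg hμ y hF⟩

end Fermat.Agent.LT.T7.H75.NS

end
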